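import Fermat.Agent.S19.H679.NT

/-!
# Cell A3 (S19), block UNR (helper679) — minimal spanning sets over a valuation ring

* `exists_minimal_spanningH679` : a finitely generated module spanned by a set `S` is spanned
  by a finite subset of `S` none of whose elements is in the span of the others;
* `indep_of_minimalH679`        : over a valuation ring `V` of `ℚ̄` such a set is linearly
  independent over `ℚ̄`;
* `tensor_indepH679`            : products `f(x) g(y)` of an independent family of functions are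
  independent;
* `mem_ratLocalizedAtH679`      : `ℚ ∩ V = ℤ_(ℓ)`;
* `isIntegral_of_conj_memH679`  : an element all of whose conjugates lie in `V` is integral
  over `ℤ_(ℓ)`.
-/

set_option autoImplicit false

namespace Fermat.Agent.S19.H679

open Fermat.Agent.S54 Fermat.Agent.S55.Bridge
open Polynomial

attribute [local instance] isAlgebraic_Qbar isGalois_Qbar

/-- A finite generating subset of `S` with no redundant element. -/
theorem exists_minimal_spanningH679 {A W : Type*} [CommRing A] [AddCommGroup W] [Module A W]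
    (S : Set W) (N : Submodule A W) (hN : N.FG) (hS : Submodule.span A S = N) :
    ∃ F : Finset W, (F : Set W) ⊆ S ∧ Submodule.span A (F : Set W) = N ∧
      ∀ f ∈ F, f ∉ Submodule.span A ((F : Set W) \ {f}) := by
  classical
  have hex : ∃ n : ℕ, ∃ F : Finset W, (F : Set W) ⊆ S ∧ Submodule.span A (F : Set W) = N ∧
      F.card = n := by
    rw [← hS] at hN
    obtain ⟨F, hF1, hF2⟩ := (Submodule.fg_span_iff_fg_span_finset_subset S).1 hN
    exact ⟨F.card, F, hF1, by rw [← hF2, hS], rfl⟩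
  obtain ⟨F, hF1, hF2, hF3⟩ := Nat.find_spec hex
  refine ⟨F, hF1, hF2, fun f hf hmem => ?_⟩
  rw [← Finset.coe_erase] at hmem
  have hlt : (F.erase f).card < Nat.find hex := by
    rw [← hF3]
    exact Finset.card_erase_lt_of_mem hf
  apply Nat.find_min hex hlt
  refine ⟨F.erase f, ?_, ?_, rfl⟩
  · exact fun x hx => hF1 (Finset.mem_of_mem_erase (Finset.mem_coe.1 hx))
  · rw [← hF2]
    apply le_antisymm
    · exact Submodule.span_mono fun x hx => Finset.mem_of_mem_erase (Finset.mem_coe.1 hx)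
    · rw [Submodule.span_le]
      intro x hx
      by_cases hxf : x = f
      · rw [hxf]; exact hmem
      · exact Submodule.subset_span (Finset.mem_coe.2 (Finset.mem_erase.2 ⟨hxf, hx⟩))

/-- Over a valuation ring, a spanning set without redundant elements is independent over the
fraction field. -/
theorem indep_of_minimalH679 (V : ValuationSubring Qb) {N : Type*} (F : Finset (N → Qb))
    (hmin : ∀ f ∈ F, f ∉ Submodule.span V ((F : Set (N → Qb)) \ {f}))
    (g : (N → Qb) → Qb) (hg : ∑ f ∈ F, g f • f = 0) : ∀ f ∈ F, g f = 0 := by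
  classical
  by_contra hcon
  push Not at hcon
  obtain ⟨f₀, hf₀, hgf₀⟩ := hcon
  obtain ⟨f₁, hf₁, hmax⟩ := Finset.exists_max_image F (fun f => V.valuation (g f)) ⟨f₀, hf₀⟩
  have hg1 : g f₁ ≠ 0 := by
    intro h
    have h1 := hmax f₀ hf₀
    rw [h, map_zero] at h1
    exact hgf₀ ((Valuation.zero_iff _).1 (le_antisymm h1 zero_le))
  have hcoef : ∀ f ∈ F, g f * (g f₁)⁻¹ ∈ V := by
    intro f hf
    rw [← V.valuation_le_one_iff, map_mul, map_inv₀, ← div_eq_mul_inv]
    have hpos : 0 < V.valuation (g f₁) := zero_lt_iff.2 ((Valuation.ne_zero_iff _).2 hg1)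
    rw [div_le_one₀ hpos]
    exact hmax f hf
  apply hmin f₁ hf₁
  rw [← Finset.coe_erase]
  have hrel : f₁ = ∑ f ∈ F.erase f₁, (-(g f * (g f₁)⁻¹)) • f := by
    rw [← Finset.add_sum_erase F _ hf₁] at hg
    have h1 : g f₁ • f₁ = -∑ f ∈ F.erase f₁, g f • f := eq_neg_of_add_eq_zero_left hg
    calc f₁ = (g f₁)⁻¹ • (g f₁ • f₁) := by rw [smul_smul, inv_mul_cancel₀ hg1, one_smul]
      _ = (g f₁)⁻¹ • (-∑ f ∈ F.erase f₁, g f • f) := by rw [h1]
      _ = ∑ f ∈ F.erase f₁, (-(g f * (g f₁)⁻¹)) • f := by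
        rw [smul_neg, Finset.smul_sum, ← Finset.sum_neg_distrib]
        refine Finset.sum_congr rfl fun f _ => ?_
        rw [smul_smul, neg_smul, mul_comm]
  have hgoal : ∑ f ∈ F.erase f₁, (-(g f * (g f₁)⁻¹)) • f
      ∈ Submodule.span V ((F.erase f₁ : Finset (N → Qb)) : Set (N → Qb)) := by
    refine Submodule.sum_mem _ fun f hf => ?_
    have hfF : f ∈ F := Finset.mem_of_mem_erase hf
    have h3 : (-(g f * (g f₁)⁻¹)) • f
        = (⟨-(g f * (g f₁)⁻¹), V.neg_mem _ (hcoef f hfF)⟩ : V) • f := rfl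
    rw [h3]
    exact Submodule.smul_mem _ _ (Submodule.subset_span (Finset.mem_coe.2 hf))
  have key : ∀ S : Submodule V (N → Qb),
      ∑ f ∈ F.erase f₁, (-(g f * (g f₁)⁻¹)) • f ∈ S → f₁ ∈ S := by
    intro S h
    rw [hrel]
    exact h
  exact key _ hgoal

/-- Independence of the products `f(x) g(y)`. -/
theorem tensor_indepH679 {N : Type*} (F : Finset (N → Qb))
    (hind : ∀ g : (N → Qb) → Qb, ∑ f ∈ F, g f • f = 0 → ∀ f ∈ F, g f = 0)
    (c : (N → Qb) → (N → Qb) → Qb)
    (hc : ∀ x y : N, ∑ f ∈ F, ∑ g ∈ F, c f g * (f x * g y) = 0) :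
    ∀ f ∈ F, ∀ g ∈ F, c f g = 0 := by
  classical
  -- first in the variable `x`
  have h1 : ∀ y : N, ∀ f ∈ F, ∑ g ∈ F, c f g * g y = 0 := by
    intro y
    apply hind (fun f => ∑ g ∈ F, c f g * g y)
    funext x
    rw [Finset.sum_apply, Pi.zero_apply, ← hc x y]
    refine Finset.sum_congr rfl fun f _ => ?_
    rw [Pi.smul_apply, smul_eq_mul, Finset.sum_mul]
    refine Finset.sum_congr rfl fun g _ => ?_
    ring
  intro f hf
  apply hind (fun g => c f g)
  funext y
  rw [Finset.sum_apply, Pi.zero_apply, ← h1 y f hf]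
  refine Finset.sum_congr rfl fun g _ => ?_
  rw [Pi.smul_apply, smul_eq_mul]

variable (V : ValuationSubring Qb) {ℓ : ℕ} (hℓ : ℓ.Prime) (hV : (ℓ : Qb) ∈ V.nonunits)

include hℓ hV in
/-- `ℚ ∩ V = ℤ_(ℓ)`. -/
theorem mem_ratLocalizedAtH679 (q : ℚ) (hq : (algebraMap ℚ Qb q) ∈ V) : q ∈ Rl ℓ := by
  show q.den.Coprime ℓ
  rw [Nat.coprime_comm, hℓ.coprime_iff_not_dvd]
  intro hdvd
  obtain ⟨k, hk⟩ := hdvd
  -- `num = q * den ∈ 𝔪`
  have h1 : ((q.num : ℤ) : Qb) = algebraMap ℚ Qb q * ((q.den : ℕ) : Qb) := by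
    have h2 : (q.num : ℚ) = q * (q.den : ℚ) := (Rat.mul_den_eq_num q).symm
    have h3 := congrArg (algebraMap ℚ Qb) h2
    rw [map_mul, map_intCast, map_natCast] at h3
    exact h3
  have h4 : ((q.den : ℕ) : Qb) ∈ V.nonunits := by
    rw [hk]
    push_cast
    exact mul_mem_nonunitsH679' V hV (natCast_mem V k)
  have h5 : ((q.num : ℤ) : Qb) ∈ V.nonunits := by
    rw [h1]
    exact mul_mem_nonunitsH679 V hq h4
  have h6 := dvd_of_intCast_mem_nonunits V ℓ hℓ hV _ h5
  have h7 : (ℓ : ℤ) ∣ (q.den : ℤ) := ⟨k, by exact_mod_cast hk⟩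
  have h8 : IsCoprime q.num (q.den : ℤ) := by
    rw [Int.isCoprime_iff_gcd_eq_one]
    have := q.reduced
    rw [Nat.Coprime] at this
    rw [Int.gcd]
    simpa using this
  have h9 : IsUnit (ℓ : ℤ) := h8.isUnit_of_dvd' h6 h7
  rw [Int.isUnit_iff] at h9
  have := hℓ.one_lt
  omega

/-- Elements of `ℚ̄` fixed by the whole Galois group are rational. -/
theorem mem_range_of_fixedH679 (x : Qb) (hx : ∀ σ : GalQ, σ x = x) :
    ∃ q : ℚ, algebraMap ℚ Qb q = x := by
  have hfix : x ∈ IntermediateField.fixedField (⊤ : Subgroup GalQ) := by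
    rintro ⟨g, -⟩
    exact hx g
  rw [InfiniteGalois.fixedField_bot, IntermediateField.mem_bot] at hfix
  exact hfix

include hℓ hV in
/-- An element all of whose conjugates lie in `V` is integral over `ℤ_(ℓ)`. -/
theorem isIntegral_of_conj_memH679 (x : Qb) (hx : ∀ σ : GalQ, σ x ∈ V) :
    IsIntegral (Rl ℓ) x := by
  set Q := orbPolyH679 (⊤ : Subgroup GalQ) x with hQ
  have hmonic : Q.Monic := monic_prod_of_monic _ _ fun y _ => monic_X_sub_C y
  have hcoefV : ∀ j, Q.coeff j ∈ V := fun j =>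
    coeff_prod_X_sub_C_memH679 V.toSubring _ (fun y hy => by
      obtain ⟨σ, -, rfl⟩ := mem_orbH679.1 hy
      exact hx σ) j
  have hcoefQ : ∀ j, ∃ r : Rl ℓ, algebraMap (Rl ℓ) Qb r = Q.coeff j := by
    intro j
    obtain ⟨q, hq⟩ := mem_range_of_fixedH679 (Q.coeff j) fun σ =>
      apply_coeff_orbPolyH679 x (Subgroup.mem_top σ) j
    exact ⟨⟨q, mem_ratLocalizedAtH679 V hℓ hV q (hq ▸ hcoefV j)⟩, hq⟩
  have hlift : Q ∈ Polynomial.lifts (algebraMap (Rl ℓ) Qb) := by
    rw [Polynomial.lifts_iff_coeff_lifts]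
    intro j
    obtain ⟨r, hr⟩ := hcoefQ j
    exact ⟨r, hr⟩
  obtain ⟨P, hP, -, hPm⟩ := Polynomial.lifts_and_degree_eq_and_monic hlift hmonic
  refine ⟨P, hPm, ?_⟩
  rw [← Polynomial.eval_map, hP]
  exact orbPolyH679_eval_self _ x

end Fermat.Agent.S19.H679
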