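import Mathlib

/-!
# Cell A3 (S19), block UNR (helper679) — the semilinear action on functions and the orbit trace

`Γ` a group acting on a field `Ω` by ring automorphisms and on a set `M` (through a plain map
`act : Γ → M → M` with `act 1 = id`, `act (σ τ) = act σ ∘ act τ`).  On functions `M → Ω` we
use the semilinear action `(σ ⋆ f) m = σ • f (act σ⁻¹ m)`; `f` is *equivariant*
(`f (act σ m) = σ • f m`) iff `σ ⋆ f = f`.

Main result: `orbitTrace_mem` — the orbit-trace lemma used for unramified descent.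
-/

set_option autoImplicit false

namespace Fermat.Agent.S19.H679

variable {Γ : Type*} [Group Γ] {Ω : Type*} [Field Ω] [MulSemiringAction Γ Ω] {M : Type*}

/-- `act` is a group action (as a plain map). -/
structure IsActH679 (act : Γ → M → M) : Prop where
  one : ∀ m, act 1 m = m
  mul : ∀ σ τ m, act (σ * τ) m = act σ (act τ m)

/-- The semilinear action on functions. -/
def starH679 (act : Γ → M → M) (σ : Γ) (f : M → Ω) : M → Ω := fun m => σ • f (act σ⁻¹ m)

theorem starH679_apply (act : Γ → M → M) (σ : Γ) (f : M → Ω) (m : M) :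
    starH679 act σ f m = σ • f (act σ⁻¹ m) := rfl

section basics

variable {act : Γ → M → M} (hact : IsActH679 act)
include hact

theorem IsActH679.inv_act (σ : Γ) (m : M) : act σ⁻¹ (act σ m) = m := by
  rw [← hact.mul, inv_mul_cancel, hact.one]

theorem IsActH679.act_inv (σ : Γ) (m : M) : act σ (act σ⁻¹ m) = m := by
  rw [← hact.mul, mul_inv_cancel, hact.one]

theorem starH679_one (f : M → Ω) : starH679 act (1 : Γ) f = f := by
  funext m
  simp [starH679, hact.one]

theorem starH679_mul (σ τ : Γ) (f : M → Ω) :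
    starH679 act (σ * τ) f = starH679 act σ (starH679 act τ f) := by
  funext m
  simp only [starH679, mul_inv_rev, hact.mul, mul_smul]

theorem starH679_inv_star (σ : Γ) (f : M → Ω) :
    starH679 act σ⁻¹ (starH679 act σ f) = f := by
  rw [← starH679_mul hact, inv_mul_cancel, starH679_one hact]

theorem starH679_star_inv (σ : Γ) (f : M → Ω) :
    starH679 act σ (starH679 act σ⁻¹ f) = f := by
  rw [← starH679_mul hact, mul_inv_cancel, starH679_one hact]

/-- `σ ⋆ f = f` iff `f` intertwines `act σ` and `σ •`. -/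
theorem starH679_eq_self_iff (σ : Γ) (f : M → Ω) :
    starH679 act σ f = f ↔ ∀ m, f (act σ m) = σ • f m := by
  constructor
  · intro h m
    have := congrFun h (act σ m)
    rw [starH679_apply, hact.inv_act] at this
    exact this.symm
  · intro h
    funext m
    rw [starH679_apply, ← h, hact.act_inv]

end basics

/-- The semilinear action as a ring homomorphism of the function ring. -/
def starRingHomH679 (act : Γ → M → M) (σ : Γ) : (M → Ω) →+* (M → Ω) where
  toFun := starH679 act σ
  map_one' := by funext m; simp [starH679]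
  map_mul' f g := by funext m; simp [starH679, smul_mul']
  map_zero' := by funext m; simp [starH679]
  map_add' f g := by funext m; simp [starH679, smul_add]

@[simp] theorem starRingHomH679_apply (act : Γ → M → M) (σ : Γ) (f : M → Ω) :
    starRingHomH679 act σ f = starH679 act σ f := rfl

theorem starH679_smul (act : Γ → M → M) (σ : Γ) (x : Ω) (f : M → Ω) :
    starH679 act σ (x • f) = (σ • x) • starH679 act σ f := by
  funext m
  simp [starH679, smul_mul']

theorem starH679_add (act : Γ → M → M) (σ : Γ) (f g : M → Ω) :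
    starH679 act σ (f + g) = starH679 act σ f + starH679 act σ g :=
  map_add (starRingHomH679 act σ) f g

theorem starH679_sum (act : Γ → M → M) (σ : Γ) {ι : Type*} (s : Finset ι) (F : ι → M → Ω) :
    starH679 act σ (∑ i ∈ s, F i) = ∑ i ∈ s, starH679 act σ (F i) :=
  map_sum (starRingHomH679 act σ) F s

/-- The action on pairs (coefficient tuple, function). -/
def actPairH679 (act : Γ → M → M) {J : Type*} (σ : Γ) (p : (J → Ω) × (M → Ω)) :
    (J → Ω) × (M → Ω) :=
  (fun j => σ • p.1 j, starH679 act σ p.2)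

theorem actPairH679_mul {act : Γ → M → M} (hact : IsActH679 act) {J : Type*} (σ τ : Γ)
    (p : (J → Ω) × (M → Ω)) :
    actPairH679 act (σ * τ) p = actPairH679 act σ (actPairH679 act τ p) := by
  simp only [actPairH679, starH679_mul hact, mul_smul]

theorem actPairH679_one {act : Γ → M → M} (hact : IsActH679 act) {J : Type*}
    (p : (J → Ω) × (M → Ω)) : actPairH679 act (1 : Γ) p = p := by
  simp only [actPairH679, starH679_one hact, one_smul]

section trace

variable {act : Γ → M → M} (hact : IsActH679 act)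
variable {A : Type*} [CommRing A] [Algebra A Ω]
variable {J : Type*} [Fintype J]

/-- The orbit trace with coefficient index `j`. -/
noncomputable def orbitTraceH679 (O : Finset ((J → Ω) × (M → Ω))) (j : J) : M → Ω :=
  ∑ p ∈ O, p.1 j • p.2

include hact in
/-- The orbit trace over a `Γ`-stable finite set is invariant. -/
theorem starH679_orbitTrace (O : Finset ((J → Ω) × (M → Ω)))
    (hO : ∀ σ : Γ, ∀ p ∈ O, actPairH679 act σ p ∈ O) (σ : Γ) (j : J) :
    starH679 act σ (orbitTraceH679 O j) = orbitTraceH679 O j := by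
  classical
  unfold orbitTraceH679
  rw [starH679_sum]
  refine Finset.sum_nbij' (fun p => actPairH679 act σ p) (fun p => actPairH679 act σ⁻¹ p)
    (fun p hp => hO σ p hp) (fun p hp => hO σ⁻¹ p hp) ?_ ?_ ?_
  · intro p _
    rw [← actPairH679_mul hact, inv_mul_cancel, actPairH679_one hact]
  · intro p _
    rw [← actPairH679_mul hact, mul_inv_cancel, actPairH679_one hact]
  · intro p _
    rw [starH679_smul]
    rfl

include hact in
/-- **Orbit-trace lemma.**  See the module docstring of `Descent.lean` for its use. -/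
theorem orbitTrace_mem (𝔪 : Ideal A) (Hloc : Submodule A (M → Ω))
    (c : J → Ω) (a : J → A) (f : M → Ω) (D : Set Γ) (hD1 : (1 : Γ) ∈ D)
    (hfin : (Set.range fun σ : Γ => actPairH679 act σ (c, f)).Finite)
    (h1 : ∀ δ ∈ D, starH679 act δ f ∈ Hloc)
    (h1' : ∀ δ ∈ D, ∀ j, ∃ y : A, algebraMap A Ω y = δ • c j)
    (h2 : ∃ e ∈ 𝔪, ∑ j, algebraMap A Ω (a j) * c j = 1 + algebraMap A Ω e)
    (h3 : ∀ δ ∈ D, actPairH679 act δ (c, f) ≠ (c, f) →
      ∃ e ∈ 𝔪, ∑ j, algebraMap A Ω (a j) * δ • c j = algebraMap A Ω e)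
    (h4 : ∀ σ : Γ, (∀ δ ∈ D, actPairH679 act σ (c, f) ≠ actPairH679 act δ (c, f)) →
      ∀ j, (σ • c j) • starH679 act σ f ∈ 𝔪 • Hloc) :
    f ∈ Submodule.span A {h | h ∈ Hloc ∧ ∀ σ : Γ, starH679 act σ h = h} ⊔ 𝔪 • Hloc := by
  classical
  set O : Finset ((J → Ω) × (M → Ω)) := hfin.toFinset with hOdef
  have hmemO : ∀ p, p ∈ O ↔ ∃ σ : Γ, actPairH679 act σ (c, f) = p := by
    intro p
    rw [hOdef, Set.Finite.mem_toFinset]
    rfl
  have hOstable : ∀ σ : Γ, ∀ p ∈ O, actPairH679 act σ p ∈ O := by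
    intro σ p hp
    obtain ⟨τ, rfl⟩ := (hmemO p).1 hp
    exact (hmemO _).2 ⟨σ * τ, actPairH679_mul hact σ τ _⟩
  have hp0 : (c, f) ∈ O := (hmemO _).2 ⟨1, actPairH679_one hact _⟩
  have hfH : f ∈ Hloc := by
    have := h1 1 hD1
    rwa [starH679_one hact] at this
  have hmH : 𝔪 • Hloc ≤ Hloc := Submodule.smul_le_right
  -- each term of each trace lies in `Hloc`
  have hterm : ∀ p ∈ O, ∀ j, p.1 j • p.2 ∈ Hloc := by
    intro p hp j
    obtain ⟨σ, rfl⟩ := (hmemO p).1 hp
    by_cases hσ : ∃ δ ∈ D, actPairH679 act σ (c, f) = actPairH679 act δ (c, f)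
    · obtain ⟨δ, hδ, hδeq⟩ := hσ
      rw [hδeq]
      obtain ⟨y, hy⟩ := h1' δ hδ j
      show (δ • c j) • starH679 act δ f ∈ Hloc
      rw [← hy, algebraMap_smul]
      exact Hloc.smul_mem y (h1 δ hδ)
    · push_neg at hσ
      exact hmH (h4 σ hσ j)
  have hT : ∀ j, orbitTraceH679 O j ∈ {h | h ∈ Hloc ∧ ∀ σ : Γ, starH679 act σ h = h} := by
    intro j
    refine ⟨?_, fun σ => starH679_orbitTrace hact O hOstable σ j⟩
    exact Submodule.sum_mem _ fun p hp => hterm p hp j
  -- the combination
  have hcomb : ∑ j, a j • orbitTraceH679 O j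
      = ∑ p ∈ O, (∑ j, algebraMap A Ω (a j) * p.1 j) • p.2 := by
    unfold orbitTraceH679
    simp_rw [Finset.smul_sum, Finset.sum_smul]
    rw [Finset.sum_comm]
    refine Finset.sum_congr rfl fun p _ => Finset.sum_congr rfl fun j _ => ?_
    rw [← algebraMap_smul Ω (a j) (p.1 j • p.2), smul_smul]
  have hrest : ∀ p ∈ O.erase (c, f), (∑ j, algebraMap A Ω (a j) * p.1 j) • p.2 ∈ 𝔪 • Hloc := by
    intro p hp
    obtain ⟨hne, hpO⟩ := Finset.mem_erase.1 hp
    obtain ⟨σ, rfl⟩ := (hmemO p).1 hpO
    by_cases hσ : ∃ δ ∈ D, actPairH679 act σ (c, f) = actPairH679 act δ (c, f)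
    · obtain ⟨δ, hδ, hδeq⟩ := hσ
      rw [hδeq] at hne ⊢
      obtain ⟨e, he, hee⟩ := h3 δ hδ hne
      show (∑ j, algebraMap A Ω (a j) * δ • c j) • starH679 act δ f ∈ 𝔪 • Hloc
      rw [hee, algebraMap_smul]
      exact Submodule.smul_mem_smul he (h1 δ hδ)
    · push_neg at hσ
      rw [Finset.sum_smul]
      refine Submodule.sum_mem _ fun j _ => ?_
      rw [← smul_smul, algebraMap_smul]
      exact Submodule.smul_mem _ _ (h4 σ hσ j)
  obtain ⟨e, he, hee⟩ := h2
  have hsplit : ∑ j, a j • orbitTraceH679 O j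
      = f + (e • f + ∑ p ∈ O.erase (c, f), (∑ j, algebraMap A Ω (a j) * p.1 j) • p.2) := by
    rw [hcomb, ← Finset.add_sum_erase O _ hp0]
    show (∑ j, algebraMap A Ω (a j) * c j) • f + _ = _
    rw [hee, add_smul, one_smul, algebraMap_smul, add_assoc]
  have hf : f = ∑ j, a j • orbitTraceH679 O j
      - (e • f + ∑ p ∈ O.erase (c, f), (∑ j, algebraMap A Ω (a j) * p.1 j) • p.2) := by
    rw [hsplit, add_sub_cancel_right]
  rw [hf, sub_eq_add_neg]
  refine Submodule.add_mem_sup ?_ ?_
  · exact Submodule.sum_mem _ fun j _ => Submodule.smul_mem _ _ (Submodule.subset_span (hT j))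
  · refine Submodule.neg_mem _ (Submodule.add_mem _ ?_ ?_)
    · exact Submodule.smul_mem_smul he hfH
    · exact Submodule.sum_mem _ hrest

end trace

end Fermat.Agent.S19.H679
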