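import Fermat.Agent.S19.H679.Level
import Fermat.Agent.S19.H679.Star

/-!
# Cell A3 (S19), block UNR (helper679) — the conjugate family and the local algebra `Hloc`

For a `LocalCoordDatum` `L` (valuation ring `V`, coordinates `Ψ_i`, equivariant under inertia):

* `conjFamH679 L`  : the functions `δ ⋆ Ψ_i`, `δ ∈ D_V` (a finite set);
* `HlocH679 L`     : the `V`-subalgebra of `M → ℚ̄` generated by them.

Proved here: the generators are `V`-valued and inertia-invariant, `Hloc` is stable under `D_V`,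
finitely generated as a `V`-module, contains `ℓ ^ e • 1_m` for some `e` (conductor), and there
is a finite normal level `E` containing all values, over which the action on `M` is trivial.
-/

set_option autoImplicit false

namespace Fermat.Agent.S19.H679

open Fermat.Agent.S54 Fermat.Agent.S55.Bridge Fermat.Agent.S55.Bridge.H594
open Polynomial

attribute [local instance] isAlgebraic_Qbar isGalois_Qbar

variable {ℓ : ℕ} {M : Type} [AddCommGroup M] {act : GalQ → M → M}

theorem isActH679_of_cont (hact : IsContAddAction act) : IsActH679 act :=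
  ⟨hact.act_one, hact.act_mul⟩

/-- The `i`-th coordinate as a function on `M`. -/
def psiH679 (L : LocalCoordDatum ℓ M act) (i : L.ι) : M → Qb := fun m => L.Ψ m i

/-- The conjugates of the coordinates under the decomposition group. -/
def conjFamH679 (L : LocalCoordDatum ℓ M act) : Set (M → Qb) :=
  {φ | ∃ δ ∈ L.V.decompositionSubgroup ℚ, ∃ i, φ = starH679 act δ (psiH679 L i)}

/-- The local algebra. -/
noncomputable def HlocH679 (L : LocalCoordDatum ℓ M act) : Subalgebra L.V (M → Qb) :=
  Algebra.adjoin L.V (conjFamH679 L)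

/-- Functions with values in `V`. -/
noncomputable def valuedH679 (V : ValuationSubring Qb) (N : Type*) : Subalgebra V (N → Qb) where
  carrier := {f | ∀ m, f m ∈ V}
  mul_mem' := fun hf hg m => V.mul_mem _ _ (hf m) (hg m)
  add_mem' := fun hf hg m => V.add_mem _ _ (hf m) (hg m)
  algebraMap_mem' := fun r _ => r.2

theorem mem_valuedH679 {V : ValuationSubring Qb} {N : Type*} {f : N → Qb} :
    f ∈ valuedH679 V N ↔ ∀ m, f m ∈ V := Iff.rfl

section basic

variable (hact : IsContAddAction act) (L : LocalCoordDatum ℓ M act)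

include hact in
theorem psi_mem_conjFamH679 (i : L.ι) : psiH679 L i ∈ conjFamH679 L :=
  ⟨1, (L.V.decompositionSubgroup ℚ).one_mem, i, (starH679_one (isActH679_of_cont hact) _).symm⟩

include hact in
theorem psi_mem_HlocH679 (i : L.ι) : psiH679 L i ∈ HlocH679 L :=
  Algebra.subset_adjoin (psi_mem_conjFamH679 hact L i)

include hact in
/-- The coordinates are inertia-invariant. -/
theorem star_psiH679 {ι : GalQ} (hι : ι ∈ L.V.inertiaSubgroupIn ℚ) (i : L.ι) :
    starH679 act ι (psiH679 L i) = psiH679 L i := by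
  rw [starH679_eq_self_iff (isActH679_of_cont hact)]
  intro m
  exact L.equivariant ι (isInertiaAt_of_memH679 hι) m i

theorem conjFam_valuedH679 {φ : M → Qb} (hφ : φ ∈ conjFamH679 L) (m : M) : φ m ∈ L.V := by
  obtain ⟨δ, hδ, i, rfl⟩ := hφ
  exact (mem_decompH679 hδ _).2 (L.integral _ i)

include hact in
theorem conjFam_inertiaH679 {φ : M → Qb} (hφ : φ ∈ conjFamH679 L) {ι : GalQ}
    (hι : ι ∈ L.V.inertiaSubgroupIn ℚ) : starH679 act ι φ = φ := by
  obtain ⟨δ, hδ, i, rfl⟩ := hφ
  have hA := isActH679_of_cont hact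
  have h1 : δ⁻¹ * ι * δ ∈ L.V.inertiaSubgroupIn ℚ := by
    have := conj_mem_inertiaH679 ((L.V.decompositionSubgroup ℚ).inv_mem hδ) hι
    rwa [inv_inv] at this
  have h2 : ι * δ = δ * (δ⁻¹ * ι * δ) := by group
  rw [← starH679_mul hA, h2, starH679_mul hA, star_psiH679 hact L h1]

include hact in
theorem conjFam_stableH679 {φ : M → Qb} (hφ : φ ∈ conjFamH679 L) {δ : GalQ}
    (hδ : δ ∈ L.V.decompositionSubgroup ℚ) : starH679 act δ φ ∈ conjFamH679 L := by
  obtain ⟨δ', hδ', i, rfl⟩ := hφ
  exact ⟨δ * δ', (L.V.decompositionSubgroup ℚ).mul_mem hδ hδ', i,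
    (starH679_mul (isActH679_of_cont hact) _ _ _).symm⟩

theorem Hloc_le_valuedH679 : HlocH679 L ≤ valuedH679 L.V M :=
  Algebra.adjoin_le fun _ hφ => conjFam_valuedH679 L hφ

end basic

/-- Transport of membership in an adjoin along the semilinear action of a decomposition
element. -/
theorem star_mem_adjoinH679 {V : ValuationSubring Qb} {N : Type*} (act' : GalQ → N → N)
    {δ : GalQ} (hδ : δ ∈ V.decompositionSubgroup ℚ) (S S' : Set (N → Qb))
    (hS : ∀ g ∈ S, starH679 act' δ g ∈ Algebra.adjoin V S') {h : N → Qb}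
    (hh : h ∈ Algebra.adjoin V S) : starH679 act' δ h ∈ Algebra.adjoin V S' := by
  induction hh using Algebra.adjoin_induction with
  | mem x hx => exact hS x hx
  | algebraMap r =>
    have : starH679 act' δ (algebraMap V (N → Qb) r)
        = algebraMap V (N → Qb) ⟨δ (r : Qb), (mem_decompH679 hδ _).2 r.2⟩ := by
      funext m
      rfl
    rw [this]
    exact Subalgebra.algebraMap_mem _ _
  | add x y _ _ hx hy =>
    rw [starH679_add]
    exact add_mem hx hy
  | mul x y _ _ hx hy =>
    have : starH679 act' δ (x * y) = starH679 act' δ x * starH679 act' δ y :=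
      map_mul (starRingHomH679 act' δ) x y
    rw [this]
    exact mul_mem hx hy

theorem Hloc_stableH679 (hact : IsContAddAction act) (L : LocalCoordDatum ℓ M act)
    {δ : GalQ} (hδ : δ ∈ L.V.decompositionSubgroup ℚ) {h : M → Qb} (hh : h ∈ HlocH679 L) :
    starH679 act δ h ∈ HlocH679 L :=
  star_mem_adjoinH679 act hδ _ _
    (fun _ hg => Algebra.subset_adjoin (conjFam_stableH679 hact L hg hδ)) hh

/-! ## The level -/

section level

variable [Finite M]

/-- A finite normal level containing a given finite set, over which the action is trivial. -/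
theorem exists_levelH679 (hact : IsContAddAction act) (s : Finset Qb) :
    ∃ E : IntermediateField ℚ Qb, FiniteDimensional ℚ E ∧ Normal ℚ E ∧ (∀ x ∈ s, x ∈ E) ∧
      ∀ ρ : GalQ, (∀ x ∈ E, ρ x = x) → ∀ m, act ρ m = m := by
  classical
  choose Lm hLfin hLfix using hact.cont
  haveI : ∀ m, FiniteDimensional ℚ (Lm m) := hLfin
  haveI : FiniteDimensional ℚ (IntermediateField.adjoin ℚ (s : Set Qb)) :=
    IntermediateField.finiteDimensional_adjoin fun x _ => Algebra.IsIntegral.isIntegral x
  set E₀ : IntermediateField ℚ Qb := (⨆ m, Lm m) ⊔ IntermediateField.adjoin ℚ (s : Set Qb)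
    with hE₀
  haveI : FiniteDimensional ℚ E₀ := by
    rw [hE₀]
    exact IntermediateField.finiteDimensional_sup _ _
  refine ⟨IntermediateField.normalClosure ℚ E₀ Qb,
    normalClosure.is_finiteDimensional ℚ E₀ Qb, normalClosure.normal ℚ E₀ Qb, ?_, ?_⟩
  · intro x hx
    apply IntermediateField.le_normalClosure E₀
    exact (le_sup_right : _ ≤ E₀) (IntermediateField.subset_adjoin ℚ _ hx)
  · intro ρ hρ m
    apply hLfix m ρ
    intro a ha
    apply hρ
    apply IntermediateField.le_normalClosure E₀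
    exact (le_sup_left : _ ≤ E₀) ((le_iSup Lm m) ha)

end level

/-- `E` is a level for the action: automorphisms fixing `E` act trivially on `M`. -/
def IsLevelH679 (act : GalQ → M → M) (E : IntermediateField ℚ Qb) : Prop :=
  ∀ ρ : GalQ, (∀ x ∈ E, ρ x = x) → ∀ m, act ρ m = m

section ratfun

variable (hact : IsContAddAction act) {E : IntermediateField ℚ Qb} (hE : IsLevelH679 act E)

include hact hE in
/-- Automorphisms agreeing on `E` act in the same way on `M`. -/
theorem act_eq_of_agreeH679 {σ ρ : GalQ} (h : ∀ x ∈ E, σ x = ρ x) (m : M) :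
    act σ m = act ρ m := by
  have h1 : ∀ x ∈ E, (ρ⁻¹ * σ) x = x := by
    intro x hx
    show ρ⁻¹ (σ x) = x
    rw [h x hx]
    exact galH679_inv_apply ρ x
  have h2 := hE _ h1 m
  have h3 : act σ m = act ρ (act (ρ⁻¹ * σ) m) := by
    rw [← hact.act_mul, mul_inv_cancel_left]
  rw [h3, h2]

include hact hE in
/-- Automorphisms agreeing on `E` act in the same way on `E`-valued functions. -/
theorem star_eq_of_agreeH679 [Normal ℚ E] {σ ρ : GalQ} (h : ∀ x ∈ E, σ x = ρ x) {f : M → Qb}
    (hf : ∀ m, f m ∈ E) : starH679 act σ f = starH679 act ρ f := by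
  funext m
  have h1 : ∀ x ∈ E, σ⁻¹ x = ρ⁻¹ x := by
    intro x hx
    have hx' : ρ⁻¹ x ∈ E := apply_mem_levelH679 E ρ⁻¹ hx
    have h2 := h _ hx'
    rw [galH679_apply_inv] at h2
    calc σ⁻¹ x = σ⁻¹ (σ (ρ⁻¹ x)) := by rw [h2]
      _ = ρ⁻¹ x := galH679_inv_apply σ _
  rw [starH679_apply, starH679_apply, act_eq_of_agreeH679 hact hE h1 m]
  exact h _ (hf _)

end ratfun

theorem smul_applyH679 {V : ValuationSubring Qb} {N : Type*} (r : V) (f : N → Qb) (n : N) :
    (r • f) n = (r : Qb) * f n := rfl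

/-! ## Integrality and finite generation -/

/-- A `V`-valued function on a finite set is integral over `V`. -/
theorem isIntegral_of_valuedH679 {N : Type*} [Finite N] (V : ValuationSubring Qb) (f : N → Qb)
    (hf : ∀ n, f n ∈ V) : IsIntegral V f := by
  classical
  haveI := Fintype.ofFinite N
  refine ⟨∏ n : N, (X - C (⟨f n, hf n⟩ : V)), monic_prod_of_monic _ _ fun n _ => monic_X_sub_C _,
    ?_⟩
  funext n
  have h1 := Polynomial.hom_eval₂ (∏ n : N, (X - C (⟨f n, hf n⟩ : V)))
    (algebraMap V (N → Qb)) (Pi.evalRingHom (fun _ : N => Qb) n) f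
  show Pi.evalRingHom (fun _ : N => Qb) n (eval₂ (algebraMap V (N → Qb)) f _) = 0
  rw [h1, Polynomial.eval₂_finsetProd]
  refine Finset.prod_eq_zero (Finset.mem_univ n) ?_
  rw [eval₂_sub, eval₂_X, eval₂_C]
  show f n - f n = 0
  exact sub_self _

/-- Data of a finite normal level for a local coordinate datum. -/
structure LevelDataH679 (L : LocalCoordDatum ℓ M act) where
  E : IntermediateField ℚ Qb
  fin : FiniteDimensional ℚ E
  normal : Normal ℚ E
  level : IsLevelH679 act E
  psi_mem : ∀ m i, L.Ψ m i ∈ E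

theorem exists_levelDataH679 [Finite M] (hact : IsContAddAction act)
    (L : LocalCoordDatum ℓ M act) : Nonempty (LevelDataH679 L) := by
  classical
  haveI := L.fin
  haveI := Fintype.ofFinite M
  haveI := Fintype.ofFinite L.ι
  obtain ⟨E, h1, h2, h3, h4⟩ := exists_levelH679 hact
    (Finset.univ.image fun p : M × L.ι => L.Ψ p.1 p.2)
  exact ⟨⟨E, h1, h2, h4, fun m i => h3 _ (Finset.mem_image_of_mem _ (Finset.mem_univ (m, i)))⟩⟩

section withLevel

variable (hact : IsContAddAction act) (L : LocalCoordDatum ℓ M act) (Λ : LevelDataH679 L)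

theorem conjFam_mem_levelH679 {φ : M → Qb} (hφ : φ ∈ conjFamH679 L) (m : M) : φ m ∈ Λ.E := by
  haveI := Λ.normal
  obtain ⟨δ, -, i, rfl⟩ := hφ
  exact apply_mem_levelH679 Λ.E δ (Λ.psi_mem _ i)

include hact Λ in
theorem conjFam_finiteH679 : (conjFamH679 L).Finite := by
  classical
  haveI := Λ.normal
  haveI := Λ.fin
  haveI := L.fin
  haveI := Fintype.ofFinite L.ι
  obtain ⟨reps, hreps⟩ := exists_repsH679 Λ.E
  refine Set.Finite.subset
    ((reps ×ˢ (Finset.univ : Finset L.ι)).image
      fun p : GalQ × L.ι => starH679 act p.1 (psiH679 L p.2)).finite_toSet ?_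
  rintro φ ⟨δ, -, i, rfl⟩
  obtain ⟨ρ, hρ, hδρ⟩ := hreps δ
  rw [Finset.mem_coe, Finset.mem_image]
  refine ⟨(ρ, i), Finset.mem_product.2 ⟨hρ, Finset.mem_univ i⟩, ?_⟩
  exact (star_eq_of_agreeH679 hact Λ.level hδρ fun m => Λ.psi_mem m i).symm

include hact Λ in
/-- `Hloc` is a finitely generated `V`-module. -/
theorem Hloc_fgH679 [Finite M] : (Subalgebra.toSubmodule (HlocH679 L)).FG :=
  fg_adjoin_of_finite (conjFam_finiteH679 hact L Λ) fun φ hφ =>
    isIntegral_of_valuedH679 L.V φ (conjFam_valuedH679 L hφ)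

/-- The functions used as module generators of `Hloc`: `E`-valued, inertia-invariant elements
of `Hloc`. -/
def IsGoodFunH679 (f : M → Qb) : Prop :=
  (∀ m, f m ∈ Λ.E) ∧ (∀ ι ∈ L.V.inertiaSubgroupIn ℚ, starH679 act ι f = f) ∧ f ∈ HlocH679 L

include hact in
theorem isGoodFun_of_mem_closureH679 {f : M → Qb}
    (hf : f ∈ Submonoid.closure (conjFamH679 L)) : IsGoodFunH679 L Λ f := by
  induction hf using Submonoid.closure_induction with
  | mem x hx =>
    exact ⟨conjFam_mem_levelH679 L Λ hx, fun ι hι => conjFam_inertiaH679 hact L hx hι,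
      Algebra.subset_adjoin hx⟩
  | one =>
    refine ⟨fun m => Λ.E.one_mem, fun ι _ => ?_, one_mem _⟩
    exact map_one (starRingHomH679 (Ω := Qb) act ι)
  | mul x y _ _ hx hy =>
    refine ⟨fun m => Λ.E.mul_mem (hx.1 m) (hy.1 m), fun ι hι => ?_, mul_mem hx.2.2 hy.2.2⟩
    have : starH679 act ι (x * y) = starH679 act ι x * starH679 act ι y :=
      map_mul (starRingHomH679 act ι) x y
    rw [this, hx.2.1 ι hι, hy.2.1 ι hι]

include hact in
/-- `Hloc` is spanned by good functions. -/
theorem Hloc_le_span_goodH679 :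
    Subalgebra.toSubmodule (HlocH679 L) ≤ Submodule.span L.V {f | IsGoodFunH679 L Λ f} := by
  rw [HlocH679, Algebra.adjoin_eq_span]
  exact Submodule.span_mono fun f hf => isGoodFun_of_mem_closureH679 hact L Λ hf

end withLevel

/-! ## The conductor -/

section conductor

variable [Finite M] (hℓ : ℓ.Prime) (hact : IsContAddAction act) (L : LocalCoordDatum ℓ M act)

include hℓ hact in
/-- Multiples of the indicator functions lie in `Hloc`. -/
theorem exists_single_memH679 (m : M) :
    ∃ (e : ℕ) (P : M → Qb), P ∈ HlocH679 L ∧ P m = (ℓ : Qb) ^ e ∧ ∀ m', m' ≠ m → P m' = 0 := by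
  classical
  haveI := Fintype.ofFinite M
  have hsep : ∀ m' : M, ∃ g : M → Qb, g ∈ HlocH679 L ∧ (m' ≠ m → g m' = 0) ∧ g m ≠ 0 := by
    intro m'
    by_cases h : m' = m
    · exact ⟨1, one_mem _, fun h' => absurd h h', one_ne_zero⟩
    · have hex : ∃ i : L.ι, L.Ψ m i ≠ L.Ψ m' i := by
        by_contra hcon
        push Not at hcon
        apply h
        apply L.inj
        funext i
        exact (hcon i).symm
      obtain ⟨i, hi⟩ := hex
      refine ⟨psiH679 L i - algebraMap L.V (M → Qb) ⟨L.Ψ m' i, L.integral m' i⟩,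
        sub_mem (psi_mem_HlocH679 hact L i) (Subalgebra.algebraMap_mem _ _), fun _ => ?_, ?_⟩
      · show L.Ψ m' i - L.Ψ m' i = 0
        exact sub_self _
      · show L.Ψ m i - L.Ψ m' i ≠ 0
        exact sub_ne_zero.2 hi
  choose g hg1 hg2 hg3 using hsep
  set P : M → Qb := ∏ m', g m' with hP
  have hPmem : P ∈ HlocH679 L := prod_mem fun m' _ => hg1 m'
  have hPval : ∀ n, P n = ∏ m', g m' n := fun n => by
    rw [hP, Finset.prod_apply]
  have hP0 : ∀ m', m' ≠ m → P m' = 0 := by
    intro m' hm'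
    rw [hPval]
    exact Finset.prod_eq_zero (Finset.mem_univ m') (hg2 m' hm')
  have hPm : P m ≠ 0 := by
    rw [hPval]
    exact Finset.prod_ne_zero_iff.2 fun m' _ => hg3 m'
  obtain ⟨e, he⟩ := exists_pow_div_memH679 L.V hℓ L.ell_mem (P m)
  refine ⟨e, (⟨(ℓ : Qb) ^ e * (P m)⁻¹, he⟩ : L.V) • P, Subalgebra.smul_mem _ hPmem _, ?_, ?_⟩
  · rw [smul_applyH679]
    show (ℓ : Qb) ^ e * (P m)⁻¹ * P m = (ℓ : Qb) ^ e
    rw [mul_assoc, inv_mul_cancel₀ hPm, mul_one]
  · intro m' hm'
    rw [smul_applyH679, hP0 m' hm', mul_zero]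

include hℓ hact in
/-- **Conductor**: functions with values in `ℓ ^ (e+1) V` lie in `𝔪_V • Hloc`. -/
theorem exists_conductorH679 :
    ∃ e : ℕ, ∀ F : M → Qb, (∀ m, ∃ z ∈ L.V, F m = (ℓ : Qb) ^ (e + 1) * z) →
      F ∈ IsLocalRing.maximalIdeal L.V • Subalgebra.toSubmodule (HlocH679 L) := by
  classical
  haveI := Fintype.ofFinite M
  choose em P hP1 hP2 hP3 using exists_single_memH679 hℓ hact L
  refine ⟨∑ m, em m, fun F hF => ?_⟩
  choose z hz hFz using hF
  have hle : ∀ m, em m ≤ ∑ m, em m := fun m =>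
    Finset.single_le_sum (fun _ _ => Nat.zero_le _) (Finset.mem_univ m)
  have hℓV : (ℓ : Qb) ∈ L.V := mem_of_mem_nonunitsH679 L.V L.ell_mem
  set lV : L.V := ⟨(ℓ : Qb), hℓV⟩ with hlV
  have hlm : lV ∈ IsLocalRing.maximalIdeal L.V :=
    (ValuationSubring.coe_mem_nonunits_iff).1 L.ell_mem
  have hcoef : ∀ m, (ℓ : Qb) ^ ((∑ m, em m) - em m) * z m ∈ L.V := fun m =>
    L.V.mul_mem _ _ (pow_mem hℓV _) (hz m)
  have hF' : F = ∑ m, lV • ((⟨_, hcoef m⟩ : L.V) • P m) := by
    funext n
    rw [Finset.sum_apply, Finset.sum_eq_single n]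
    · rw [smul_applyH679, smul_applyH679, hP2, hFz n]
      show _ = (ℓ : Qb) * ((ℓ : Qb) ^ ((∑ m, em m) - em n) * z n * (ℓ : Qb) ^ em n)
      have : (∑ m, em m) + 1 = 1 + ((∑ m, em m) - em n) + em n := by
        have := hle n
        omega
      rw [this, pow_add, pow_add, pow_one]
      ring
    · intro m _ hmn
      rw [smul_applyH679, smul_applyH679, hP3 m n (Ne.symm hmn), mul_zero, mul_zero]
    · intro h
      exact absurd (Finset.mem_univ n) h
  rw [hF']
  refine Submodule.sum_mem _ fun m _ => ?_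
  exact Submodule.smul_mem_smul hlm (Submodule.smul_mem _ _ (hP1 m))

end conductor

end Fermat.Agent.S19.H679
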