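import Fermat.Agent.S19.H679.Conj

/-!
# Cell A3 (S19), block UNR (helper679) — `Hloc` is closed under the comultiplication

For `h ∈ Hloc` the function `(x, y) ↦ h (x + y)` lies in the image of `Hloc ⊗ Hloc`, i.e. in
`Submodule.map₂ T Hloc Hloc` with `T g g' = fun p => g p.1 * g' p.2`.
-/

set_option autoImplicit false

namespace Fermat.Agent.S19.H679

open Fermat.Agent.S54 Fermat.Agent.S55.Bridge

variable {ℓ : ℕ} {M : Type} [AddCommGroup M] {act : GalQ → M → M}

/-- The diagonal action on pairs. -/
def act2H679 (act : GalQ → M → M) (σ : GalQ) (p : M × M) : M × M := (act σ p.1, act σ p.2)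

/-- Pull-back of functions along the addition. -/
def addPullH679 (f : M → Qb) : M × M → Qb := fun p => f (p.1 + p.2)

/-- `T g g' = (x, y) ↦ g x * g' y`, as a bilinear map over `V`. -/
noncomputable def tensH679 (V : ValuationSubring Qb) (N : Type*) :
    (N → Qb) →ₗ[V] (N → Qb) →ₗ[V] (N × N → Qb) :=
  LinearMap.mk₂ V (fun g g' p => g p.1 * g' p.2)
    (fun g₁ g₂ g' => by funext p; simp [add_mul])
    (fun c g g' => by funext p; simp)
    (fun g g₁ g₂ => by funext p; simp [mul_add])
    (fun c g g' => by funext p; simp)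

@[simp] theorem tensH679_apply (V : ValuationSubring Qb) {N : Type*} (g g' : N → Qb)
    (p : N × N) : tensH679 V N g g' p = g p.1 * g' p.2 := rfl

theorem tensH679_mul (V : ValuationSubring Qb) {N : Type*} (g₁ g₁' g₂ g₂' : N → Qb) :
    tensH679 V N g₁ g₁' * tensH679 V N g₂ g₂' = tensH679 V N (g₁ * g₂) (g₁' * g₂') := by
  funext p
  simp only [Pi.mul_apply, tensH679_apply]
  ring

section

variable (hact : IsContAddAction act) (L : LocalCoordDatum ℓ M act)

include hact in
/-- (Δ1) the generators. -/
theorem addPull_conjFamH679 {φ : M → Qb} (hφ : φ ∈ conjFamH679 L) :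
    addPullH679 φ ∈ Algebra.adjoin L.V (coordFunctions (conjFamH679 L)) := by
  obtain ⟨δ, hδ, i, rfl⟩ := hφ
  have h1 := L.add_mem i
  have h2 := star_mem_adjoinH679 (act2H679 act) hδ _ (coordFunctions (conjFamH679 L)) ?_ h1
  · have h3 : starH679 (act2H679 act) δ (fun p : M × M => L.Ψ (p.1 + p.2) i)
        = addPullH679 (starH679 act δ (psiH679 L i)) := by
      funext p
      show δ (L.Ψ (act δ⁻¹ p.1 + act δ⁻¹ p.2) i) = δ (L.Ψ (act δ⁻¹ (p.1 + p.2)) i)
      rw [hact.act_add]
    rw [h3] at h2
    exact h2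
  · rintro g (⟨j, rfl⟩ | ⟨j, rfl⟩)
    · refine Algebra.subset_adjoin (Or.inl ⟨starH679 act δ (psiH679 L j), ⟨δ, hδ, j, rfl⟩, ?_⟩)
      funext p
      rfl
    · refine Algebra.subset_adjoin (Or.inr ⟨starH679 act δ (psiH679 L j), ⟨δ, hδ, j, rfl⟩, ?_⟩)
      funext p
      rfl

include hact in
/-- (Δ2) all of `Hloc`. -/
theorem addPull_HlocH679 {h : M → Qb} (hh : h ∈ HlocH679 L) :
    addPullH679 h ∈ Algebra.adjoin L.V (coordFunctions (conjFamH679 L)) := by
  unfold HlocH679 at hh
  induction hh using Algebra.adjoin_induction with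
  | mem x hx => exact addPull_conjFamH679 hact L hx
  | algebraMap r =>
    have : addPullH679 (algebraMap L.V (M → Qb) r) = algebraMap L.V (M × M → Qb) r := by
      funext p
      rfl
    rw [this]
    exact Subalgebra.algebraMap_mem _ _
  | add x y _ _ hx hy =>
    have : addPullH679 (x + y) = addPullH679 x + addPullH679 y := by
      funext p
      rfl
    rw [this]
    exact add_mem hx hy
  | mul x y _ _ hx hy =>
    have : addPullH679 (x * y) = addPullH679 x * addPullH679 y := by
      funext p
      rfl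
    rw [this]
    exact mul_mem hx hy

/-- The image of `Hloc ⊗ Hloc`. -/
noncomputable def tensImageH679 : Submodule L.V (M × M → Qb) :=
  Submodule.map₂ (tensH679 L.V M) (Subalgebra.toSubmodule (HlocH679 L))
    (Subalgebra.toSubmodule (HlocH679 L))

theorem tens_mem_tensImageH679 {g g' : M → Qb} (hg : g ∈ HlocH679 L) (hg' : g' ∈ HlocH679 L) :
    tensH679 L.V M g g' ∈ tensImageH679 L :=
  Submodule.apply_mem_map₂ _ hg hg'

theorem tensImage_eq_spanH679 :
    tensImageH679 L = Submodule.span L.V
      (Set.image2 (fun g g' => tensH679 L.V M g g')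
        (Subalgebra.toSubmodule (HlocH679 L) : Set (M → Qb))
        (Subalgebra.toSubmodule (HlocH679 L) : Set (M → Qb))) :=
  Submodule.map₂_eq_span_image2 _ _ _

theorem tensImage_mulH679 {x y : M × M → Qb} (hx : x ∈ tensImageH679 L)
    (hy : y ∈ tensImageH679 L) : x * y ∈ tensImageH679 L := by
  rw [tensImage_eq_spanH679] at hx hy ⊢
  have h1 := Submodule.mul_mem_mul hx hy
  rw [Submodule.span_mul_span] at h1
  refine Submodule.span_mono ?_ h1
  rintro z ⟨a, ⟨g₁, hg₁, g₁', hg₁', rfl⟩, b, ⟨g₂, hg₂, g₂', hg₂', rfl⟩, rfl⟩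
  refine ⟨g₁ * g₂, ?_, g₁' * g₂', ?_, (tensH679_mul L.V g₁ g₁' g₂ g₂').symm⟩
  · exact (HlocH679 L).mul_mem hg₁ hg₂
  · exact (HlocH679 L).mul_mem hg₁' hg₂'

/-- (Δ3) the adjoin of the coordinate functions lies in the image of `Hloc ⊗ Hloc`. -/
theorem adjoin_le_tensImageH679 {G : M × M → Qb}
    (hG : G ∈ Algebra.adjoin L.V (coordFunctions (conjFamH679 L))) : G ∈ tensImageH679 L := by
  induction hG using Algebra.adjoin_induction with
  | mem x hx =>
    rcases hx with ⟨h, hh, rfl⟩ | ⟨h, hh, rfl⟩
    · have : (fun p : M × M => h p.1) = tensH679 L.V M h 1 := by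
        funext p
        simp
      rw [this]
      exact tens_mem_tensImageH679 L (Algebra.subset_adjoin hh) (one_mem _)
    · have : (fun p : M × M => h p.2) = tensH679 L.V M 1 h := by
        funext p
        simp
      rw [this]
      exact tens_mem_tensImageH679 L (one_mem _) (Algebra.subset_adjoin hh)
  | algebraMap r =>
    have : algebraMap L.V (M × M → Qb) r = r • tensH679 L.V M 1 1 := by
      funext p
      simp [Algebra.algebraMap_eq_smul_one]
    rw [this]
    exact Submodule.smul_mem _ _ (tens_mem_tensImageH679 L (one_mem _) (one_mem _))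
  | add x y _ _ hx hy => exact add_mem hx hy
  | mul x y _ _ hx hy => exact tensImage_mulH679 L hx hy

include hact in
/-- (Δ) `Hloc` is closed under the comultiplication. -/
theorem addPull_mem_tensImageH679 {h : M → Qb} (hh : h ∈ HlocH679 L) :
    addPullH679 h ∈ tensImageH679 L :=
  adjoin_le_tensImageH679 L (addPull_HlocH679 hact L hh)

/-- (Δ4) in terms of a spanning set of `Hloc`. -/
theorem tensImage_eq_span_of_spanH679 (F : Set (M → Qb))
    (hF : Submodule.span L.V F = Subalgebra.toSubmodule (HlocH679 L)) :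
    tensImageH679 L = Submodule.span L.V
      (Set.image2 (fun g g' => tensH679 L.V M g g') F F) := by
  unfold tensImageH679
  rw [← hF, Submodule.map₂_span_span]

end

end Fermat.Agent.S19.H679
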