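import Fermat.Agent.S19.H679.Conj

/-!
# Cell A3 (S19), block UNR (helper679) — the key descent

`Hloc = V · (Hloc ∩ {Galois-invariant functions})`.

For a good function `f` (inertia-invariant, `E`-valued, in `Hloc`) the orbit traces
`∑_{p ∈ orbit of (c, f)} c_p • f_p` with coefficients `c_j = U · c⁰_j` (`U` the CRT element,
`c⁰_j` the Lagrange monomials) are Galois-invariant elements of `Hloc`, and
`∑_j a_j • trace_j ≡ f` modulo `𝔪_V • Hloc`.  Nakayama finishes.
-/

set_option autoImplicit false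

namespace Fermat.Agent.S19.H679

open Fermat.Agent.S54 Fermat.Agent.S55.Bridge Fermat.Agent.S55.Bridge.H594

attribute [local instance] isAlgebraic_Qbar isGalois_Qbar

variable {ℓ : ℕ} {M : Type} [AddCommGroup M] {act : GalQ → M → M}

/-- The Galois-invariant elements of `Hloc`. -/
def invSetH679 (L : LocalCoordDatum ℓ M act) : Set (M → Qb) :=
  {h | h ∈ Subalgebra.toSubmodule (HlocH679 L) ∧ ∀ σ : GalQ, starH679 act σ h = h}

section

variable [Finite M] (hℓ : ℓ.Prime) (hact : IsContAddAction act) (L : LocalCoordDatum ℓ M act)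

include hℓ in
/-- Uniform bound for the denominators of the conjugates of the values of a function. -/
theorem exists_denomH679 (f : M → Qb) :
    ∃ a : ℕ, ∀ (σ : GalQ) (m : M), (ℓ : Qb) ^ a * σ (f m) ∈ L.V := by
  classical
  haveI := Fintype.ofFinite M
  choose am ham using fun m => exists_pow_mul_conj_memH679 L.V hℓ L.ell_mem (f m)
  refine ⟨∑ m, am m, fun σ m => ?_⟩
  have hle : am m ≤ ∑ m, am m :=
    Finset.single_le_sum (fun _ _ => Nat.zero_le _) (Finset.mem_univ m)
  have : (ℓ : Qb) ^ (∑ m, am m) * σ (f m)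
      = (ℓ : Qb) ^ ((∑ m, am m) - am m) * ((ℓ : Qb) ^ am m * σ (f m)) := by
    rw [← mul_assoc, ← pow_add, Nat.sub_add_cancel hle]
  rw [this]
  exact L.V.mul_mem _ _ (pow_mem (mem_of_mem_nonunitsH679 L.V L.ell_mem) _) (ham m σ)

include hℓ hact in
/-- One good function is, modulo `𝔪 • Hloc`, a combination of invariants. -/
theorem good_mem_supH679 (Λ : LevelDataH679 L) (e : ℕ)
    (he : ∀ F : M → Qb, (∀ m, ∃ z ∈ L.V, F m = (ℓ : Qb) ^ (e + 1) * z) →
      F ∈ IsLocalRing.maximalIdeal L.V • Subalgebra.toSubmodule (HlocH679 L))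
    {f : M → Qb} (hf : IsGoodFunH679 L Λ f) :
    f ∈ Submodule.span L.V (invSetH679 L) ⊔
      IsLocalRing.maximalIdeal L.V • Subalgebra.toSubmodule (HlocH679 L) := by
  classical
  haveI := Λ.normal
  haveI := Λ.fin
  have hA := isActH679_of_cont hact
  obtain ⟨a, ha⟩ := exists_denomH679 hℓ L f
  obtain ⟨U, hUgood, hU1, hUbad⟩ := exists_crtH679 L.V Λ.E hℓ L.ell_mem (e + 1 + a)
  obtain ⟨J, hJ, c, w, hcgood, hw1, hw0⟩ := exists_weightsH679 L.V Λ.E hℓ L.ell_mem
  obtain ⟨reps, hreps⟩ := exists_repsH679 Λ.E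
  have hc'good : ∀ j, IsGoodEltH679 L.V Λ.E (U * c j) := fun j => hUgood.mul L.V Λ.E (hcgood j)
  -- agreement on `E` gives the same action on the base point
  have hagree : ∀ σ ρ : GalQ, (∀ x ∈ Λ.E, σ x = ρ x) →
      actPairH679 act σ ((fun j => U * c j), f) = actPairH679 act ρ ((fun j => U * c j), f) := by
    intro σ ρ h
    unfold actPairH679
    refine Prod.ext ?_ ?_
    · funext j
      exact h _ (hc'good j).1
    · exact star_eq_of_agreeH679 hact Λ.level h hf.1
  have hfix : ∀ ι ∈ L.V.inertiaSubgroupIn ℚ,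
      actPairH679 act ι ((fun j => U * c j), f) = ((fun j => U * c j), f) := by
    intro ι hι
    unfold actPairH679
    refine Prod.ext ?_ ?_
    · funext j
      exact (hc'good j).2.2 ι hι
    · exact hf.2.1 ι hι
  refine orbitTrace_mem hA (IsLocalRing.maximalIdeal L.V) (Subalgebra.toSubmodule (HlocH679 L))
    (fun j => U * c j) w f (L.V.decompositionSubgroup ℚ : Set GalQ)
    (L.V.decompositionSubgroup ℚ).one_mem ?_ ?_ ?_ ?_ ?_ ?_
  · -- finiteness of the orbit
    refine Set.Finite.subset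
      (reps.image fun ρ => actPairH679 act ρ ((fun j => U * c j), f)).finite_toSet ?_
    rintro p ⟨σ, rfl⟩
    obtain ⟨ρ, hρ, hσρ⟩ := hreps σ
    rw [Finset.mem_coe, Finset.mem_image]
    exact ⟨ρ, hρ, (hagree σ ρ hσρ).symm⟩
  · intro δ hδ
    exact Hloc_stableH679 hact L hδ hf.2.2
  · intro δ _ j
    exact ⟨⟨δ (U * c j), (hc'good j).apply_mem_V L.V Λ.E δ⟩, rfl⟩
  · -- the base term
    refine ⟨⟨U - 1, mem_of_mem_nonunitsH679 L.V hU1⟩,
      (ValuationSubring.coe_mem_nonunits_iff).1 hU1, ?_⟩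
    have h1 := hw1 1 (L.V.decompositionSubgroup ℚ).one_mem
      ⟨1, (L.V.inertiaSubgroupIn ℚ).one_mem, fun _ _ => rfl⟩
    have h2 : ∑ j, algebraMap L.V Qb (w j) * (U * c j)
        = U * ∑ j, (w j : Qb) * (1 : GalQ) (c j) := by
      rw [Finset.mul_sum]
      refine Finset.sum_congr rfl fun j _ => ?_
      show (w j : Qb) * (U * c j) = U * ((w j : Qb) * c j)
      ring
    rw [h2, h1, mul_one]
    show U = 1 + (U - 1)
    ring
  · -- decomposition elements moving the base point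
    intro δ hδ hne
    have hδI : ¬ ∃ ι ∈ L.V.inertiaSubgroupIn ℚ, ∀ x ∈ Λ.E, δ x = ι x := by
      rintro ⟨ι, hι, hδι⟩
      apply hne
      rw [hagree δ ι hδι]
      exact hfix ι hι
    refine ⟨0, zero_mem _, ?_⟩
    have h1 := hw0 δ hδ hδI
    have h2 : ∑ j, algebraMap L.V Qb (w j) * δ • (U * c j)
        = δ U * ∑ j, (w j : Qb) * δ (c j) := by
      rw [Finset.mul_sum]
      refine Finset.sum_congr rfl fun j _ => ?_
      show (w j : Qb) * δ (U * c j) = δ U * ((w j : Qb) * δ (c j))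
      rw [map_mul]
      ring
    rw [h2, h1, mul_zero, map_zero]
  · -- bad automorphisms
    intro σ hσ j
    have hσD : ¬ ∃ δ ∈ L.V.decompositionSubgroup ℚ, ∀ x ∈ Λ.E, δ x = σ x := by
      rintro ⟨δ, hδ, hδσ⟩
      exact hσ δ hδ (hagree δ σ hδσ).symm
    obtain ⟨z, hz, hσU⟩ := hUbad σ hσD
    apply he
    intro m
    refine ⟨z * σ (c j) * ((ℓ : Qb) ^ a * σ (f (act σ⁻¹ m))),
      L.V.mul_mem _ _ (L.V.mul_mem _ _ hz ((hcgood j).apply_mem_V L.V Λ.E σ)) (ha σ _), ?_⟩
    show σ (U * c j) * σ (f (act σ⁻¹ m)) = _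
    rw [map_mul, hσU, pow_add, pow_add]
    ring

include hℓ hact in
/-- **Key descent**: `Hloc` is spanned over `V` by its Galois-invariant elements. -/
theorem Hloc_le_span_invH679 :
    Subalgebra.toSubmodule (HlocH679 L) ≤ Submodule.span L.V (invSetH679 L) := by
  obtain ⟨Λ⟩ := exists_levelDataH679 hact L
  obtain ⟨e, he⟩ := exists_conductorH679 hℓ hact L
  refine Submodule.le_of_le_smul_of_le_jacobson_bot (Hloc_fgH679 hact L Λ)
    (le_of_eq (IsLocalRing.jacobson_eq_maximalIdeal ⊥ bot_ne_top).symm) ?_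
  refine (Hloc_le_span_goodH679 hact L Λ).trans (Submodule.span_le.2 ?_)
  intro f hf
  exact good_mem_supH679 hℓ hact L Λ e he hf

end

end Fermat.Agent.S19.H679
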