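import Fermat.Agent.S19.H679.NT

/-!
# Cell A3 (S19), block UNR (helper679) — elements at a finite normal level `E`

`V` a valuation subring of `ℚ̄` over `ℓ`, `D_V ⊇ I_V` its decomposition and inertia groups,
`E ⊂ ℚ̄` a finite normal extension of `ℚ`.

* `exists_repsH679`     : finitely many automorphisms represent all restrictions to `E`;
* `exists_crtH679`      : for every `n` an inertia-invariant integer `U ∈ E`, `U ≡ 1 mod 𝔪_V`,
                          with `σ U ∈ ℓ ^ n V` for all `σ` not agreeing on `E` with an element of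
                          `D_V`;
* `exists_weightsH679`  : inertia-invariant integers `c_j ∈ E` and weights `a_j ∈ V` with
                          `∑ a_j δ(c_j) = 1` or `0` for `δ ∈ D_V`, according to whether `δ`
                          agrees on `E` with an inertia element or not.
-/

set_option autoImplicit false

namespace Fermat.Agent.S19.H679

open Fermat.Agent.S54 Fermat.Agent.S55.Bridge Fermat.Agent.S55.Bridge.H594
open Polynomial

attribute [local instance] isAlgebraic_Qbar isGalois_Qbar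

variable (V : ValuationSubring Qb) (E : IntermediateField ℚ Qb)

/-- Elements of `E` which are algebraic integers fixed by the inertia group of `V`. -/
def IsGoodEltH679 (c : Qb) : Prop :=
  c ∈ E ∧ IsIntegral ℤ c ∧ ∀ ι ∈ V.inertiaSubgroupIn ℚ, ι c = c

theorem IsGoodEltH679.one : IsGoodEltH679 V E 1 :=
  ⟨E.one_mem, isIntegral_one, fun ι _ => map_one ι⟩

theorem IsGoodEltH679.mul {a b : Qb} (ha : IsGoodEltH679 V E a) (hb : IsGoodEltH679 V E b) :
    IsGoodEltH679 V E (a * b) :=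
  ⟨E.mul_mem ha.1 hb.1, ha.2.1.mul hb.2.1, fun ι hι => by rw [map_mul, ha.2.2 ι hι, hb.2.2 ι hι]⟩

theorem IsGoodEltH679.prod {ι : Type*} (s : Finset ι) (g : ι → Qb)
    (hg : ∀ i ∈ s, IsGoodEltH679 V E (g i)) : IsGoodEltH679 V E (∏ i ∈ s, g i) := by
  classical
  induction s using Finset.induction_on with
  | empty => simpa using IsGoodEltH679.one V E
  | insert a s ha ih =>
    rw [Finset.prod_insert ha]
    exact (hg a (Finset.mem_insert_self a s)).mul V E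
      (ih fun i hi => hg i (Finset.mem_insert_of_mem hi))

theorem IsGoodEltH679.mem_V {c : Qb} (hc : IsGoodEltH679 V E c) : c ∈ V :=
  isIntegral_mem_valuationSubring V hc.2.1

theorem IsGoodEltH679.apply_mem_V {c : Qb} (hc : IsGoodEltH679 V E c) (σ : GalQ) : σ c ∈ V :=
  isIntegral_mem_valuationSubring V (hc.2.1.map σ)

section normal

variable [Normal ℚ E]

theorem apply_mem_levelH679 (σ : GalQ) {x : Qb} (hx : x ∈ E) : σ x ∈ E := by
  have := restrictNormalHom_apply E σ ⟨x, hx⟩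
  rw [← this]
  exact (AlgEquiv.restrictNormalHom E σ ⟨x, hx⟩).2

theorem agree_iff_restrictH679 (σ τ : GalQ) :
    (∀ x ∈ E, σ x = τ x) ↔ AlgEquiv.restrictNormalHom E σ = AlgEquiv.restrictNormalHom E τ := by
  constructor
  · intro h
    apply AlgEquiv.ext
    intro x
    apply Subtype.ext
    rw [restrictNormalHom_apply, restrictNormalHom_apply]
    exact h x x.2
  · intro h x hx
    have h1 := restrictNormalHom_apply E σ ⟨x, hx⟩
    have h2 := restrictNormalHom_apply E τ ⟨x, hx⟩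
    rw [← h1, ← h2, h]

variable [FiniteDimensional ℚ E]

/-- Finitely many automorphisms represent all restrictions to `E`. -/
theorem exists_repsH679 :
    ∃ reps : Finset GalQ, ∀ σ : GalQ, ∃ ρ ∈ reps, ∀ x ∈ E, σ x = ρ x := by
  classical
  haveI : Fintype (E ≃ₐ[ℚ] E) := Fintype.ofFinite _
  have hsurj := AlgEquiv.restrictNormalHom_surjective (F := ℚ) (K₁ := E) Qb
  refine ⟨Finset.univ.image (Function.surjInv hsurj), fun σ => ?_⟩
  refine ⟨Function.surjInv hsurj (AlgEquiv.restrictNormalHom E σ),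
    Finset.mem_image_of_mem _ (Finset.mem_univ _), ?_⟩
  rw [agree_iff_restrictH679, Function.surjInv_eq hsurj]

end normal

variable {ℓ : ℕ} (hℓ : ℓ.Prime) (hV : (ℓ : Qb) ∈ V.nonunits)

section crt

variable [Normal ℚ E]

include hℓ hV in
/-- One bad automorphism: an integer of `E`, `≡ 1 mod 𝔪_V`, sent into `𝔪_V`. -/
theorem exists_crt1H679 (σ : GalQ)
    (hσ : ¬ ∃ δ ∈ V.decompositionSubgroup ℚ, ∀ x ∈ E, δ x = σ x) :
    ∃ w : Qb, w ∈ E ∧ IsIntegral ℤ w ∧ w - 1 ∈ V.nonunits ∧ σ w ∈ V.nonunits := by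
  have hex : ∃ x : E, IsIntegral ℤ x ∧
      ¬ ((σ (x : Qb)) ∈ V.nonunits ↔ (x : Qb) ∈ V.nonunits) := by
    by_contra hcon
    push Not at hcon
    apply hσ
    obtain ⟨δ, hδ, hδr⟩ := exists_decomposition_lift E V hℓ hV (AlgEquiv.restrictNormalHom E σ)
      (fun x hx => by
        rw [restrictNormalHom_apply]
        exact hcon x hx)
    exact ⟨δ, hδ, (agree_iff_restrictH679 E δ σ).2 hδr⟩
  obtain ⟨x, hxint, hx⟩ := hex
  have hxint' : IsIntegral ℤ (x : Qb) := hxint.map (IntermediateField.val E)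
  have hxV : (x : Qb) ∈ V := isIntegral_mem_valuationSubring V hxint'
  have hσxint : IsIntegral ℤ (σ (x : Qb)) := hxint'.map σ
  have hσxV : σ (x : Qb) ∈ V := isIntegral_mem_valuationSubring V hσxint
  by_cases h1 : (x : Qb) ∈ V.nonunits
  · -- `x ∈ 𝔪`, `σ x ∉ 𝔪`
    have h2 : σ (x : Qb) ∉ V.nonunits := fun h => hx ⟨fun _ => h1, fun _ => h⟩
    obtain ⟨N, hN, hN'⟩ := exists_pow_sub_one_memH679 V hℓ hV _ hσxint h2
    refine ⟨1 - (x : Qb) ^ N, E.sub_mem E.one_mem (pow_mem x.2 N),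
      isIntegral_one.sub (hxint'.pow N), ?_, ?_⟩
    · have : (1 - (x : Qb) ^ N) - 1 = -((x : Qb) ^ (N - 1) * (x : Qb)) := by
        rw [← pow_succ, Nat.sub_add_cancel hN]; ring
      rw [this]
      exact V.nonunits.neg_mem (mul_mem_nonunitsH679 V (pow_mem hxV _) h1)
    · have : σ (1 - (x : Qb) ^ N) = -((σ (x : Qb)) ^ N - 1) := by
        rw [map_sub, map_one, map_pow]; ring
      rw [this]
      exact V.nonunits.neg_mem hN'
  · -- `x ∉ 𝔪`, `σ x ∈ 𝔪`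
    have h2 : σ (x : Qb) ∈ V.nonunits := by
      by_contra h
      exact hx ⟨fun h' => absurd h' h, fun h' => absurd h' h1⟩
    obtain ⟨N, hN, hN'⟩ := exists_pow_sub_one_memH679 V hℓ hV _ hxint' h1
    refine ⟨(x : Qb) ^ N, pow_mem x.2 N, hxint'.pow N, hN', ?_⟩
    rw [map_pow]
    have : (σ (x : Qb)) ^ N = (σ (x : Qb)) ^ (N - 1) * σ (x : Qb) := by
      rw [← pow_succ, Nat.sub_add_cancel hN]
    rw [this]
    exact mul_mem_nonunitsH679 V (pow_mem hσxV _) h2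

include hℓ hV in
/-- One bad automorphism, with divisibility by `ℓ ^ n`. -/
theorem exists_crt2H679 (n : ℕ) (σ : GalQ)
    (hσ : ¬ ∃ δ ∈ V.decompositionSubgroup ℚ, ∀ x ∈ E, δ x = σ x) :
    ∃ w : Qb, w ∈ E ∧ IsIntegral ℤ w ∧ w - 1 ∈ V.nonunits ∧
      ∃ z ∈ V, σ w = (ℓ : Qb) ^ n * z := by
  obtain ⟨w, hwE, hwint, hw1, hσw⟩ := exists_crt1H679 V E hℓ hV σ hσ
  obtain ⟨k, -, z, hz, hk⟩ := exists_pow_eq_mulH679 V hℓ hV (σ w) (hwint.map σ) hσw
  refine ⟨w ^ (k * n), pow_mem hwE _, hwint.pow _, ?_, z ^ n, pow_mem hz n, ?_⟩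
  · have := prod_sub_one_mem_nonunitsH679 V (Finset.range (k * n)) (fun _ => w) (fun _ _ => hw1)
    simpa using this
  · rw [map_pow, pow_mul, hk, mul_pow]

variable [FiniteDimensional ℚ E]

include hℓ hV in
/-- **CRT element**: an inertia-invariant integer `U ∈ E`, `U ≡ 1 mod 𝔪_V`, all of whose bad
conjugates are divisible by `ℓ ^ n`. -/
theorem exists_crtH679 (n : ℕ) :
    ∃ U : Qb, IsGoodEltH679 V E U ∧ U - 1 ∈ V.nonunits ∧
      ∀ σ : GalQ, (¬ ∃ δ ∈ V.decompositionSubgroup ℚ, ∀ x ∈ E, δ x = σ x) →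
        ∃ z ∈ V, σ U = (ℓ : Qb) ^ n * z := by
  classical
  obtain ⟨reps, hreps⟩ := exists_repsH679 E
  -- the bad representatives
  set bad : Finset GalQ := reps.filter fun ρ =>
    ¬ ∃ δ ∈ V.decompositionSubgroup ℚ, ∀ x ∈ E, δ x = ρ x with hbad
  have hchoose : ∀ ρ : GalQ, ∃ w : Qb, ρ ∈ bad → (w ∈ E ∧ IsIntegral ℤ w ∧ w - 1 ∈ V.nonunits ∧
      ∃ z ∈ V, ρ w = (ℓ : Qb) ^ n * z) := by
    intro ρ
    by_cases hρ : ρ ∈ bad
    · obtain ⟨w, hw⟩ := exists_crt2H679 V E hℓ hV n ρ (Finset.mem_filter.1 hρ).2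
      exact ⟨w, fun _ => hw⟩
    · exact ⟨0, fun h => absurd h hρ⟩
  choose w hw using hchoose
  set U₀ : Qb := ∏ ρ ∈ bad, w ρ with hU₀
  have hU₀E : U₀ ∈ E := Subring.prod_mem E.toSubfield.toSubring fun ρ hρ => (hw ρ hρ).1
  have hU₀int : IsIntegral ℤ U₀ := IsIntegral.prod _ fun ρ hρ => (hw ρ hρ).2.1
  have hU₀1 : U₀ - 1 ∈ V.nonunits :=
    prod_sub_one_mem_nonunitsH679 V bad w fun ρ hρ => (hw ρ hρ).2.2.1
  have hU₀bad : ∀ σ : GalQ, (¬ ∃ δ ∈ V.decompositionSubgroup ℚ, ∀ x ∈ E, δ x = σ x) →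
      ∃ z ∈ V, σ U₀ = (ℓ : Qb) ^ n * z := by
    intro σ hσ
    obtain ⟨ρ, hρ, hσρ⟩ := hreps σ
    have hρbad : ρ ∈ bad := by
      rw [hbad, Finset.mem_filter]
      refine ⟨hρ, ?_⟩
      rintro ⟨δ, hδ, hδρ⟩
      exact hσ ⟨δ, hδ, fun x hx => (hδρ x hx).trans (hσρ x hx).symm⟩
    obtain ⟨z, hz, hρw⟩ := (hw ρ hρbad).2.2.2
    refine ⟨z * ∏ ρ' ∈ bad.erase ρ, σ (w ρ'), ?_, ?_⟩
    · refine V.mul_mem _ _ hz (Subring.prod_mem V.toSubring fun ρ' hρ' => ?_)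
      exact isIntegral_mem_valuationSubring V
        (((hw ρ' (Finset.mem_of_mem_erase hρ')).2.1).map σ)
    · rw [hU₀, map_prod, ← Finset.mul_prod_erase bad _ hρbad, hσρ _ (hw ρ hρbad).1, hρw]
      ring
  -- make it inertia-invariant
  set I := V.inertiaSubgroupIn ℚ with hI
  refine ⟨∏ y ∈ orbH679 I U₀, y, ⟨?_, ?_, ?_⟩, ?_, ?_⟩
  · refine Subring.prod_mem E.toSubfield.toSubring fun y hy => ?_
    obtain ⟨ι, -, rfl⟩ := mem_orbH679.1 hy
    exact apply_mem_levelH679 E ι hU₀E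
  · refine IsIntegral.prod _ fun y hy => ?_
    obtain ⟨ι, -, rfl⟩ := mem_orbH679.1 hy
    exact hU₀int.map ι
  · intro ι hι
    exact apply_prod_orbH679 U₀ hι
  · refine prod_sub_one_mem_nonunitsH679 V _ _ fun y hy => ?_
    obtain ⟨ι, hι, rfl⟩ := mem_orbH679.1 hy
    have h1 := inertia_sub_memH679 hι (isIntegral_mem_valuationSubring V hU₀int)
    have : ι U₀ - 1 = (ι U₀ - U₀) + (U₀ - 1) := by ring
    rw [this]
    exact V.nonunits.add_mem h1 hU₀1
  · intro σ hσ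
    obtain ⟨z, hz, hσU⟩ := hU₀bad σ hσ
    refine ⟨z * ∏ y ∈ (orbH679 I U₀).erase U₀, σ y, ?_, ?_⟩
    · refine V.mul_mem _ _ hz (Subring.prod_mem V.toSubring fun y hy => ?_)
      obtain ⟨ι, -, rfl⟩ := mem_orbH679.1 (Finset.mem_of_mem_erase hy)
      exact isIntegral_mem_valuationSubring V ((hU₀int.map ι).map σ)
    · rw [map_prod, ← Finset.mul_prod_erase _ _ (self_mem_orbH679 I U₀), hσU]
      ring

end crt

section sep

variable [Normal ℚ E]

include hℓ hV in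
/-- **Separating element**: a decomposition element which is not inertial on `E` moves the
residue of some inertia-invariant integer of `E`. -/
theorem exists_sep1H679 (δ : GalQ) (hδ : δ ∈ V.decompositionSubgroup ℚ)
    (hδI : ¬ ∃ ι ∈ V.inertiaSubgroupIn ℚ, ∀ x ∈ E, δ x = ι x) :
    ∃ t : Qb, IsGoodEltH679 V E t ∧ δ t - t ∉ V.nonunits := by
  have hex : ∃ x : E, IsIntegral ℤ x ∧ δ (x : Qb) - (x : Qb) ∉ V.nonunits := by
    by_contra hcon
    push Not at hcon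
    apply hδI
    obtain ⟨ι, hι, hιr⟩ := exists_inertia_lift E V hℓ hV (AlgEquiv.restrictNormalHom E δ)
      (fun x hx => by
        rw [restrictNormalHom_apply]
        exact hcon x hx)
    exact ⟨ι, hι, fun x hx => ((agree_iff_restrictH679 E ι δ).2 hιr x hx).symm⟩
  obtain ⟨x, hxint, hx⟩ := hex
  have hxint' : IsIntegral ℤ (x : Qb) := hxint.map (IntermediateField.val E)
  have hxV : (x : Qb) ∈ V := isIntegral_mem_valuationSubring V hxint'
  set I := V.inertiaSubgroupIn ℚ with hI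
  set Q := orbPolyH679 I (x : Qb) with hQ
  have horbE : ∀ y ∈ orbH679 I (x : Qb), y ∈ E := by
    intro y hy
    obtain ⟨ι, -, rfl⟩ := mem_orbH679.1 hy
    exact apply_mem_levelH679 E ι x.2
  have horbint : ∀ y ∈ orbH679 I (x : Qb), IsIntegral ℤ y := by
    intro y hy
    obtain ⟨ι, -, rfl⟩ := mem_orbH679.1 hy
    exact hxint'.map ι
  have hgood : ∀ j, IsGoodEltH679 V E (Q.coeff j) := by
    intro j
    refine ⟨?_, ?_, fun ι hι => apply_coeff_orbPolyH679 (x : Qb) hι j⟩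
    · exact coeff_prod_X_sub_C_memH679 E.toSubfield.toSubring _ horbE j
    · exact coeff_prod_X_sub_C_memH679 (integralClosure ℤ Qb).toSubring _ horbint j
  by_contra hcon
  push Not at hcon
  have hall : ∀ j, δ (Q.coeff j) - Q.coeff j ∈ V.nonunits := fun j =>
    hcon (Q.coeff j) (hgood j)
  -- evaluate `Q^δ - Q` at `x`
  have hdeg : (Q.map (δ : Qb →+* Qb)).natDegree = Q.natDegree :=
    Polynomial.natDegree_map_eq_of_injective δ.injective Q
  have h1 : (Q.map (δ : Qb →+* Qb)).eval (x : Qb) - Q.eval (x : Qb)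
      = ∑ i ∈ Finset.range (Q.natDegree + 1), (δ (Q.coeff i) - Q.coeff i) * (x : Qb) ^ i := by
    rw [Polynomial.eval_eq_sum_range, Polynomial.eval_eq_sum_range, hdeg, ← Finset.sum_sub_distrib]
    refine Finset.sum_congr rfl fun i _ => ?_
    rw [Polynomial.coeff_map, sub_mul]
    rfl
  have h2 : (Q.map (δ : Qb →+* Qb)).eval (x : Qb) ∈ V.nonunits := by
    have h3 : Q.eval (x : Qb) = 0 := orbPolyH679_eval_self I (x : Qb)
    rw [h3, sub_zero] at h1
    rw [h1]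
    refine V.nonunits.sum_mem fun i _ => ?_
    exact mul_mem_nonunitsH679' V (hall i) (pow_mem hxV i)
  have h4 : (Q.map (δ : Qb →+* Qb)).eval (x : Qb)
      = ∏ y ∈ orbH679 I (x : Qb), ((x : Qb) - δ y) := by
    rw [hQ, orbPolyH679, Polynomial.map_prod, Polynomial.eval_prod]
    refine Finset.prod_congr rfl fun y _ => ?_
    simp
  rw [h4] at h2
  obtain ⟨y, hy, hy'⟩ := exists_mem_nonunits_of_prodH679 V _ _ (fun y hy =>
    sub_mem hxV (isIntegral_mem_valuationSubring V ((horbint y hy).map δ))) h2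
  obtain ⟨ι, hι, rfl⟩ := mem_orbH679.1 hy
  have h5 : δ (ι (x : Qb)) - δ (x : Qb) ∈ V.nonunits := by
    rw [← map_sub]
    exact (mem_nonunits_decompH679 hδ _).2 (inertia_sub_memH679 hι hxV)
  apply hx
  have h6 : δ (x : Qb) - (x : Qb) = -(((x : Qb) - δ (ι (x : Qb))) + (δ (ι (x : Qb)) - δ (x : Qb))) := by
    ring
  rw [h6]
  exact V.nonunits.neg_mem (V.nonunits.add_mem hy' h5)

variable [FiniteDimensional ℚ E]

include hℓ hV in
/-- **Lagrange weights** for the unramified part of the descent. -/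
theorem exists_weightsH679 :
    ∃ (J : Type) (_ : Fintype J) (c : J → Qb) (a : J → V),
      (∀ j, IsGoodEltH679 V E (c j)) ∧
      (∀ δ ∈ V.decompositionSubgroup ℚ, (∃ ι ∈ V.inertiaSubgroupIn ℚ, ∀ x ∈ E, δ x = ι x) →
        ∑ j, (a j : Qb) * δ (c j) = 1) ∧
      (∀ δ ∈ V.decompositionSubgroup ℚ, (¬ ∃ ι ∈ V.inertiaSubgroupIn ℚ, ∀ x ∈ E, δ x = ι x) →
        ∑ j, (a j : Qb) * δ (c j) = 0) := by
  classical
  obtain ⟨reps, hreps⟩ := exists_repsH679 E
  set B : Finset GalQ := reps.filter fun ρ =>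
    ∃ δ ∈ V.decompositionSubgroup ℚ, (∀ x ∈ E, δ x = ρ x) ∧
      ¬ ∃ ι ∈ V.inertiaSubgroupIn ℚ, ∀ x ∈ E, δ x = ι x with hB
  have hchoose : ∀ ρ : GalQ, ∃ (δ : GalQ) (t : Qb), ρ ∈ B →
      ((∀ x ∈ E, δ x = ρ x) ∧ IsGoodEltH679 V E t ∧ δ t - t ∉ V.nonunits) := by
    intro ρ
    by_cases hρ : ρ ∈ B
    · obtain ⟨δ, hδ, hδρ, hδI⟩ := (Finset.mem_filter.1 hρ).2
      obtain ⟨t, ht, ht'⟩ := exists_sep1H679 V E hℓ hV δ hδ hδI
      exact ⟨δ, t, fun _ => ⟨hδρ, ht, ht'⟩⟩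
    · exact ⟨1, 0, fun h => absurd h hρ⟩
  choose d t hdt using hchoose
  set β : GalQ → Qb := fun ρ => d ρ (t ρ) with hβ
  have hβV : ∀ ρ ∈ B, β ρ ∈ V := fun ρ hρ => (hdt ρ hρ).2.1.apply_mem_V V E (d ρ)
  have hunit : ∀ ρ ∈ B, (t ρ - β ρ)⁻¹ ∈ V := by
    intro ρ hρ
    apply inv_mem_of_not_mem_nonunitsH679
    intro h
    apply (hdt ρ hρ).2.2
    have : d ρ (t ρ) - t ρ = -(t ρ - β ρ) := by rw [hβ]; ring
    rw [this]
    exact V.nonunits.neg_mem h
  have hne : ∀ ρ ∈ B, t ρ - β ρ ≠ 0 := by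
    intro ρ hρ h
    apply (hdt ρ hρ).2.2
    have : d ρ (t ρ) - t ρ = -(t ρ - β ρ) := by rw [hβ]; ring
    rw [this, h, neg_zero]
    exact V.nonunits.zero_mem
  set κ : Qb := ∏ ρ ∈ B, (t ρ - β ρ)⁻¹ with hκ
  have hκV : κ ∈ V := Subring.prod_mem V.toSubring hunit
  have haV : ∀ S : Finset GalQ, S ∈ B.powerset → κ * ∏ ρ ∈ B \ S, (-β ρ) ∈ V := by
    intro S _
    refine V.mul_mem _ _ hκV (Subring.prod_mem V.toSubring fun ρ hρ => ?_)
    exact V.neg_mem _ (hβV ρ (Finset.mem_sdiff.1 hρ).1)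
  -- the key identity
  have hkey : ∀ δ : GalQ, ∑ S ∈ B.powerset, (κ * ∏ ρ ∈ B \ S, (-β ρ)) * δ (∏ ρ ∈ S, t ρ)
      = κ * ∏ ρ ∈ B, (δ (t ρ) - β ρ) := by
    intro δ
    have h1 : ∏ ρ ∈ B, (δ (t ρ) - β ρ) = ∏ ρ ∈ B, (δ (t ρ) + (-β ρ)) :=
      Finset.prod_congr rfl fun ρ _ => sub_eq_add_neg _ _
    rw [h1, Finset.prod_add, Finset.mul_sum]
    refine Finset.sum_congr rfl fun S _ => ?_
    rw [map_prod]
    ring
  refine ⟨↥B.powerset, inferInstance, fun S => ∏ ρ ∈ S.1, t ρ,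
    fun S => ⟨κ * ∏ ρ ∈ B \ S.1, (-β ρ), haV S.1 S.2⟩, ?_, ?_, ?_⟩
  · intro S
    refine IsGoodEltH679.prod V E _ _ fun ρ hρ => (hdt ρ ?_).2.1
    exact Finset.mem_powerset.1 S.2 hρ
  · intro δ _ hδI
    obtain ⟨ι, hι, hδι⟩ := hδI
    have hsum := Finset.sum_coe_sort B.powerset
      (fun S => (κ * ∏ ρ ∈ B \ S, (-β ρ)) * δ (∏ ρ ∈ S, t ρ))
    rw [hkey] at hsum
    show ∑ S : ↥B.powerset, (κ * ∏ ρ ∈ B \ S.1, (-β ρ)) * δ (∏ ρ ∈ S.1, t ρ) = 1
    rw [hsum]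
    have h2 : ∀ ρ ∈ B, δ (t ρ) = t ρ := by
      intro ρ hρ
      rw [hδι _ (hdt ρ hρ).2.1.1]
      exact (hdt ρ hρ).2.1.2.2 ι hι
    rw [Finset.prod_congr rfl fun ρ hρ => by rw [h2 ρ hρ], hκ, ← Finset.prod_mul_distrib]
    exact Finset.prod_eq_one fun ρ hρ => inv_mul_cancel₀ (hne ρ hρ)
  · intro δ hδ hδI
    have hsum := Finset.sum_coe_sort B.powerset
      (fun S => (κ * ∏ ρ ∈ B \ S, (-β ρ)) * δ (∏ ρ ∈ S, t ρ))
    rw [hkey] at hsum
    show ∑ S : ↥B.powerset, (κ * ∏ ρ ∈ B \ S.1, (-β ρ)) * δ (∏ ρ ∈ S.1, t ρ) = 0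
    rw [hsum]
    obtain ⟨ρ, hρ, hδρ⟩ := hreps δ
    have hρB : ρ ∈ B := by
      rw [hB, Finset.mem_filter]
      exact ⟨hρ, δ, hδ, hδρ, hδI⟩
    have h3 : δ (t ρ) - β ρ = 0 := by
      rw [hβ, sub_eq_zero, hδρ _ (hdt ρ hρB).2.1.1, ← (hdt ρ hρB).1 _ (hdt ρ hρB).2.1.1]
    rw [Finset.prod_eq_zero hρB h3, mul_zero]

end sep

end Fermat.Agent.S19.H679
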