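import Fermat.Agent.S19.H679.Descent
import Fermat.Agent.S19.H679.Basis
import Fermat.Agent.S19.H679.Delta

/-!
# Cell A3 (S19), block UNR (helper679) — `UnrStatement`

Local coordinates at one place, equivariant under inertia only, give global Galois-equivariant
integral coordinates with `Z̄_(ℓ)`-polynomial addition.

    theorem unrStatementH679 : Fermat.Agent.S19.UnrStatement
-/

set_option autoImplicit false

namespace Fermat.Agent.S19.H679

open Fermat.Agent.S54 Fermat.Agent.S55.Bridge

attribute [local instance] isAlgebraic_Qbar isGalois_Qbar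

/-- Independence over a finset, transported to the subtype. -/
theorem indep_subtypeH679 {N : Type*} (F : Finset (N → Qb))
    (hind : ∀ g : (N → Qb) → Qb, ∑ f ∈ F, g f • f = 0 → ∀ f ∈ F, g f = 0)
    (g : ↥F → Qb) (hg : ∑ k : ↥F, g k • (k : N → Qb) = 0) : ∀ k, g k = 0 := by
  classical
  intro k
  have h1 := hind (fun f => if h : f ∈ F then g ⟨f, h⟩ else 0) ?_ k.1 k.2
  · simpa using h1
  · rw [← Finset.sum_coe_sort F]
    rw [← hg]
    refine Finset.sum_congr rfl fun k _ => ?_
    simp

/-- Independence of products, for a family indexed by a finite type. -/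
theorem tensor_indep_subtypeH679 {N : Type*} (F : Finset (N → Qb))
    (hind : ∀ g : (N → Qb) → Qb, ∑ f ∈ F, g f • f = 0 → ∀ f ∈ F, g f = 0)
    (c : ↥F × ↥F → Qb)
    (hc : ∀ x y : N, ∑ p : ↥F × ↥F, c p * ((p.1 : N → Qb) x * (p.2 : N → Qb) y) = 0) :
    ∀ p, c p = 0 := by
  classical
  have hind' := indep_subtypeH679 F hind
  have h1 : ∀ (y : N) (k : ↥F), ∑ k' : ↥F, c (k, k') * (k' : N → Qb) y = 0 := by
    intro y
    apply hind' (fun k => ∑ k' : ↥F, c (k, k') * (k' : N → Qb) y)
    funext x
    rw [Finset.sum_apply, Pi.zero_apply, ← hc x y, Fintype.sum_prod_type]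
    refine Finset.sum_congr rfl fun k _ => ?_
    rw [Pi.smul_apply, smul_eq_mul, Finset.sum_mul]
    refine Finset.sum_congr rfl fun k' _ => ?_
    ring
  rintro ⟨k, k'⟩
  refine hind' (fun k' => c (k, k')) ?_ k'
  funext y
  rw [Finset.sum_apply, Pi.zero_apply, ← h1 y k]
  refine Finset.sum_congr rfl fun k' _ => ?_
  rw [Pi.smul_apply, smul_eq_mul]

variable {ℓ : ℕ} {M : Type} [AddCommGroup M] {act : GalQ → M → M}

/-- The diagonal action is an action. -/
theorem isAct2H679 (hact : IsContAddAction act) : IsActH679 (act2H679 act) :=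
  ⟨fun p => Prod.ext (hact.act_one _) (hact.act_one _),
    fun σ τ p => Prod.ext (hact.act_mul _ _ _) (hact.act_mul _ _ _)⟩

theorem star2_tensH679 (V : ValuationSubring Qb) (σ : GalQ) (g g' : M → Qb) :
    starH679 (act2H679 act) σ (tensH679 V M g g')
      = tensH679 V M (starH679 act σ g) (starH679 act σ g') := by
  funext p
  show σ (g (act σ⁻¹ p.1) * g' (act σ⁻¹ p.2)) = _
  rw [map_mul]
  rfl

theorem star2_addPullH679 (hact : IsContAddAction act) (σ : GalQ) (f : M → Qb) :
    starH679 (act2H679 act) σ (addPullH679 f) = addPullH679 (starH679 act σ f) := by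
  funext p
  show σ (f (act σ⁻¹ p.1 + act σ⁻¹ p.2)) = σ (f (act σ⁻¹ (p.1 + p.2)))
  rw [hact.act_add]

/-- **UNR**: unramified descent of local coordinates. -/
theorem unrStatementH679 : UnrStatement := by
  classical
  intro ℓ hℓfact M _ _ act hact L
  have hℓ : ℓ.Prime := hℓfact.out
  have hA := isActH679_of_cont hact
  have hspan : Submodule.span L.V (invSetH679 L) = Subalgebra.toSubmodule (HlocH679 L) :=
    le_antisymm (Submodule.span_le.2 fun h hh => hh.1) (Hloc_le_span_invH679 hℓ hact L)
  obtain ⟨Λ⟩ := exists_levelDataH679 hact L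
  obtain ⟨F, hF1, hF2, hF3⟩ :=
    exists_minimal_spanningH679 (invSetH679 L) _ (Hloc_fgH679 hact L Λ) hspan
  have hind := indep_of_minimalH679 L.V F hF3
  have hFinv : ∀ k : ↥F, ∀ σ : GalQ, starH679 act σ (k : M → Qb) = k := fun k σ =>
    (hF1 k.2).2 σ
  have hFH : ∀ k : ↥F, (k : M → Qb) ∈ HlocH679 L := fun k => (hF1 k.2).1
  have hFV : ∀ (k : ↥F) (m : M), (k : M → Qb) m ∈ L.V := fun k m =>
    Hloc_le_valuedH679 L (hFH k) m
  have hFeq : ∀ (k : ↥F) (σ : GalQ) (m : M), (k : M → Qb) (act σ m) = σ ((k : M → Qb) m) :=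
    fun k σ m => (starH679_eq_self_iff hA σ _).1 (hFinv k σ) m
  refine ⟨{ ι := ↥F
            fin := inferInstance
            Φ := fun m k => (k : M → Qb) m
            inj := ?_
            equivariant := fun σ m k => hFeq k σ m
            integral := ?_
            add_mem := ?_ }⟩
  · -- injectivity
    intro m m' h
    apply L.inj
    funext i
    have hsub : Submodule.span L.V (F : Set (M → Qb)) ≤
        LinearMap.ker ((LinearMap.proj m : (M → Qb) →ₗ[L.V] Qb) - LinearMap.proj m') := by
      rw [Submodule.span_le]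
      intro f hf
      rw [SetLike.mem_coe, LinearMap.mem_ker, LinearMap.sub_apply, sub_eq_zero]
      exact congrFun h ⟨f, hf⟩
    have h1 : psiH679 L i ∈ Submodule.span L.V (F : Set (M → Qb)) := by
      rw [hF2]
      exact psi_mem_HlocH679 hact L i
    have h2 := hsub h1
    rw [LinearMap.mem_ker, LinearMap.sub_apply, sub_eq_zero] at h2
    exact h2
  · -- integrality
    intro m k
    apply isIntegral_of_conj_memH679 L.V hℓ L.ell_mem
    intro σ
    rw [← hFeq k σ m]
    exact hFV k _
  · -- addition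
    intro k
    have h1 : addPullH679 (k : M → Qb) ∈ tensImageH679 L :=
      addPull_mem_tensImageH679 hact L (hFH k)
    rw [tensImage_eq_span_of_spanH679 L (F : Set (M → Qb)) hF2] at h1
    have hrange : Set.image2 (fun g g' => tensH679 L.V M g g') (F : Set (M → Qb))
        (F : Set (M → Qb)) = Set.range fun p : ↥F × ↥F =>
          tensH679 L.V M (p.1 : M → Qb) (p.2 : M → Qb) := by
      ext G
      constructor
      · rintro ⟨g, hg, g', hg', rfl⟩
        exact ⟨(⟨g, hg⟩, ⟨g', hg'⟩), rfl⟩
      · rintro ⟨p, rfl⟩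
        exact ⟨p.1, p.1.2, p.2, p.2.2, rfl⟩
    rw [hrange, Submodule.mem_span_range_iff_exists_fun] at h1
    obtain ⟨c, hc⟩ := h1
    -- pointwise form
    have hcpt : ∀ x y : M, ∑ p : ↥F × ↥F, (c p : Qb) * ((p.1 : M → Qb) x * (p.2 : M → Qb) y)
        = (k : M → Qb) (x + y) := by
      intro x y
      have := congrFun hc (x, y)
      rw [Finset.sum_apply] at this
      exact this
    -- the coefficients are Galois-invariant
    have hcinv : ∀ (σ : GalQ) (p : ↥F × ↥F), σ (c p : Qb) = (c p : Qb) := by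
      intro σ p
      have h2 : ∀ x y : M, ∑ p : ↥F × ↥F,
          (σ (c p : Qb) - (c p : Qb)) * ((p.1 : M → Qb) x * (p.2 : M → Qb) y) = 0 := by
        intro x y
        have h3 := congrArg σ (hcpt (act σ⁻¹ x) (act σ⁻¹ y))
        rw [map_sum, ← hact.act_add, ← hFeq k σ, hA.act_inv, ← hcpt x y] at h3
        rw [← sub_eq_zero, ← Finset.sum_sub_distrib] at h3
        rw [← h3]
        refine Finset.sum_congr rfl fun p _ => ?_
        rw [map_mul, map_mul, ← hFeq p.1 σ, ← hFeq p.2 σ, hA.act_inv, hA.act_inv]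
        ring
      have h4 := tensor_indep_subtypeH679 F hind (fun p => σ (c p : Qb) - (c p : Qb)) h2 p
      exact sub_eq_zero.1 h4
    -- hence they lie in `ℤ_(ℓ)`, in particular in `Zb`
    have hcint : ∀ p : ↥F × ↥F, IsIntegral (Rl ℓ) (c p : Qb) := by
      intro p
      obtain ⟨q, hq⟩ := mem_range_of_fixedH679 (c p : Qb) fun σ => hcinv σ p
      have hqR : q ∈ Rl ℓ := mem_ratLocalizedAtH679 L.V hℓ L.ell_mem q (hq ▸ (c p).2)
      have : (c p : Qb) = algebraMap (Rl ℓ) Qb ⟨q, hqR⟩ := hq.symm
      rw [this]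
      exact isIntegral_algebraMap
    have hfinal : (fun p : M × M => (k : M → Qb) (p.1 + p.2))
        = ∑ p : ↥F × ↥F, (⟨(c p : Qb), hcint p⟩ : Zb ℓ) •
            ((fun x : M × M => (p.1 : M → Qb) x.1) * fun x : M × M => (p.2 : M → Qb) x.2) := by
      funext x
      rw [Finset.sum_apply, ← hcpt x.1 x.2]
      rfl
    rw [hfinal]
    refine Subalgebra.sum_mem _ fun p _ => Subalgebra.smul_mem _ (mul_mem ?_ ?_) _
    · exact Algebra.subset_adjoin (Or.inl ⟨p.1, rfl⟩)
    · exact Algebra.subset_adjoin (Or.inr ⟨p.2, rfl⟩)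

end Fermat.Agent.S19.H679
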