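import Fermat.Agent.S19.Spec
import Fermat.Agent.S55.Bridge.H594.Lift

/-!
# Cell A3 (S19), block UNR (helper679) — number-theoretic inputs

`V` a valuation subring of `ℚ̄` over the prime `ℓ`.  Elementary facts about algebraic integers
and `V` ("rank one" lemmas), orbits under subgroups of the Galois group, and the two existence
lemmas used by the descent:

* `exists_sepH679`  : an inertia-invariant integer of a normal level `E` moved (mod `𝔪_V`) by a
  given decomposition element which is not inertial on `E`;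
* `exists_crtH679`  : an inertia-invariant integer `U` of `E`, `U ≡ 1 mod 𝔪_V`, whose conjugates
  `σ U` are divisible by `ℓ ^ n` for all `σ` not in `D_V · Gal(ℚ̄/E)`.
-/

set_option autoImplicit false

namespace Fermat.Agent.S19.H679

open Fermat.Agent.S54 Fermat.Agent.S55.Bridge Fermat.Agent.S55.Bridge.H594
open Polynomial

attribute [local instance] isAlgebraic_Qbar isGalois_Qbar

variable (V : ValuationSubring Qb)

/-! ## Basic valuation facts -/

theorem mul_mem_nonunitsH679 {a b : Qb} (ha : a ∈ V) (hb : b ∈ V.nonunits) :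
    a * b ∈ V.nonunits := by
  rw [ValuationSubring.mem_nonunits_iff] at hb ⊢
  rw [map_mul]
  have h1 : V.valuation a ≤ 1 := (V.valuation_le_one_iff a).2 ha
  calc V.valuation a * V.valuation b ≤ 1 * V.valuation b := mul_le_mul' h1 le_rfl
    _ = V.valuation b := one_mul _
    _ < 1 := hb

theorem mul_mem_nonunitsH679' {a b : Qb} (ha : a ∈ V.nonunits) (hb : b ∈ V) :
    a * b ∈ V.nonunits := by
  rw [mul_comm]
  exact mul_mem_nonunitsH679 V hb ha

theorem mem_of_mem_nonunitsH679 {a : Qb} (ha : a ∈ V.nonunits) : a ∈ V :=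
  V.nonunits_subset ha

theorem inv_mem_of_not_mem_nonunitsH679 {a : Qb} (ha : a ∉ V.nonunits) : a⁻¹ ∈ V := by
  by_contra h
  exact ha (V.mem_nonunits_iff_or.mpr (Or.inr h))

/-- `𝔪_V` is a prime ideal: a product of elements of `V` in `𝔪_V` has a factor in `𝔪_V`. -/
theorem mem_nonunits_of_mulH679 {a b : Qb} (_ha : a ∈ V) (_hb : b ∈ V)
    (hab : a * b ∈ V.nonunits) : a ∈ V.nonunits ∨ b ∈ V.nonunits := by
  by_contra hcon
  rw [not_or] at hcon
  have h1 := inv_mem_of_not_mem_nonunitsH679 V hcon.1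
  have h2 := inv_mem_of_not_mem_nonunitsH679 V hcon.2
  have ha0 : a ≠ 0 := fun h => hcon.1 (h ▸ V.nonunits.zero_mem)
  have hb0 : b ≠ 0 := fun h => hcon.2 (h ▸ V.nonunits.zero_mem)
  have h3 : (a⁻¹ * b⁻¹) * (a * b) ∈ V.nonunits :=
    mul_mem_nonunitsH679 V (V.mul_mem _ _ h1 h2) hab
  have h4 : (a⁻¹ * b⁻¹) * (a * b) = 1 := by field_simp
  rw [h4, ValuationSubring.mem_nonunits_iff, map_one] at h3
  exact lt_irrefl _ h3

theorem one_not_mem_nonunitsH679 : (1 : Qb) ∉ V.nonunits := by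
  rw [ValuationSubring.mem_nonunits_iff, map_one]
  exact lt_irrefl _

theorem prod_mem_nonunitsH679 {ι : Type*} (s : Finset ι) (g : ι → Qb) (hg : ∀ i ∈ s, g i ∈ V)
    (i₀ : ι) (hi₀ : i₀ ∈ s) (h0 : g i₀ ∈ V.nonunits) : ∏ i ∈ s, g i ∈ V.nonunits := by
  classical
  rw [← Finset.mul_prod_erase s g hi₀]
  refine mul_mem_nonunitsH679' V h0 ?_
  exact Subring.prod_mem V.toSubring fun i hi => hg i (Finset.mem_of_mem_erase hi)

theorem exists_mem_nonunits_of_prodH679 {ι : Type*} (s : Finset ι) (g : ι → Qb)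
    (hg : ∀ i ∈ s, g i ∈ V) (h : ∏ i ∈ s, g i ∈ V.nonunits) : ∃ i ∈ s, g i ∈ V.nonunits := by
  classical
  induction s using Finset.induction_on with
  | empty =>
    rw [Finset.prod_empty] at h
    exact absurd h (one_not_mem_nonunitsH679 V)
  | insert a s ha ih =>
    rw [Finset.prod_insert ha] at h
    have h1 : g a ∈ V := hg a (Finset.mem_insert_self a s)
    have h2 : ∏ i ∈ s, g i ∈ V :=
      Subring.prod_mem V.toSubring fun i hi => hg i (Finset.mem_insert_of_mem hi)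
    rcases mem_nonunits_of_mulH679 V h1 h2 h with h3 | h3
    · exact ⟨a, Finset.mem_insert_self a s, h3⟩
    · obtain ⟨i, hi, hi'⟩ := ih (fun i hi => hg i (Finset.mem_insert_of_mem hi)) h3
      exact ⟨i, Finset.mem_insert_of_mem hi, hi'⟩

variable {ℓ : ℕ} (hℓ : ℓ.Prime) (hV : (ℓ : Qb) ∈ V.nonunits)

include hℓ hV in
/-- Integers prime to `ℓ` are units of `V`. -/
theorem intCast_inv_memH679 (d : ℤ) (hd : ¬ (ℓ : ℤ) ∣ d) : ((d : Qb))⁻¹ ∈ V := by
  apply inv_mem_of_not_mem_nonunitsH679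
  intro h
  exact hd (dvd_of_intCast_mem_nonunits V ℓ hℓ hV d h)

include hℓ hV in
/-- **Bounded denominators**: for every `x` some `ℓ ^ a` clears the `V`-denominators of all
conjugates of `x`. -/
theorem exists_pow_mul_conj_memH679 (x : Qb) : ∃ a : ℕ, ∀ σ : GalQ, (ℓ : Qb) ^ a * σ x ∈ V := by
  have halg : IsAlgebraic ℤ x :=
    (IsFractionRing.isAlgebraic_iff ℤ ℚ Qb).mpr (Algebra.IsAlgebraic.isAlgebraic x)
  obtain ⟨d, hd0, hd⟩ := halg.exists_integral_multiple
  -- `d = ℓ ^ a * d'` with `ℓ ∤ d'`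
  obtain ⟨a, d', hd', hdd⟩ : ∃ (a : ℕ) (d' : ℤ), ¬ (ℓ : ℤ) ∣ d' ∧ d = (ℓ : ℤ) ^ a * d' := by
    have hfin : FiniteMultiplicity (ℓ : ℤ) d := by
      rw [Int.finiteMultiplicity_iff]
      refine ⟨?_, hd0⟩
      have := hℓ.one_lt
      simp only [Int.natAbs_natCast]
      omega
    obtain ⟨c, hc1, hc2⟩ := hfin.exists_eq_pow_mul_and_not_dvd
    exact ⟨_, c, hc2, hc1⟩
  refine ⟨a, fun σ => ?_⟩
  have h1 : IsIntegral ℤ (σ (d • x)) := hd.map σ
  have h2 : σ (d • x) ∈ V := isIntegral_mem_valuationSubring V h1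
  have h3 : ((d' : Qb))⁻¹ ∈ V := intCast_inv_memH679 V hℓ hV d' hd'
  have hd'0 : (d' : Qb) ≠ 0 := by
    intro h
    apply hd'
    have : d' = 0 := by exact_mod_cast h
    rw [this]
    exact dvd_zero _
  have h4 : (ℓ : Qb) ^ a * σ x = σ (d • x) * ((d' : Qb))⁻¹ := by
    rw [zsmul_eq_mul, map_mul, map_intCast, hdd]
    push_cast
    field_simp
  rw [h4]
  exact V.mul_mem _ _ h2 h3

include hℓ hV in
/-- For a nonzero `y` some power of `ℓ` is divisible by `y` in `V`. -/
theorem exists_pow_div_memH679 (y : Qb) : ∃ e : ℕ, (ℓ : Qb) ^ e * y⁻¹ ∈ V := by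
  obtain ⟨a, ha⟩ := exists_pow_mul_conj_memH679 V hℓ hV y⁻¹
  exact ⟨a, by simpa using ha 1⟩

include hℓ hV in
/-- **Rank one**: a non-unit algebraic integer has a power divisible by `ℓ`. -/
theorem exists_pow_eq_mulH679 (y : Qb) (hy : IsIntegral ℤ y) (hyV : y ∈ V.nonunits) :
    ∃ k : ℕ, 0 < k ∧ ∃ z ∈ V, y ^ k = (ℓ : Qb) * z := by
  rcases eq_or_ne y 0 with rfl | hy0
  · exact ⟨1, one_pos, 0, V.zero_mem, by simp⟩
  obtain ⟨p, hpm, hpy⟩ := hy
  have hpy' : aeval y p = 0 := by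
    rw [aeval_def]; exact hpy
  -- the least index with coefficient prime to `ℓ`
  have hex : ∃ i, ¬ (ℓ : ℤ) ∣ p.coeff i := by
    refine ⟨p.natDegree, ?_⟩
    rw [hpm.coeff_natDegree]
    intro h
    have h1 := Int.isUnit_iff.mp (isUnit_of_dvd_one h)
    have := hℓ.one_lt
    omega
  classical
  set i := Nat.find hex with hi
  have hi1 : ¬ (ℓ : ℤ) ∣ p.coeff i := Nat.find_spec hex
  have hi2 : ∀ j < i, (ℓ : ℤ) ∣ p.coeff j := fun j hj => by
    by_contra h
    exact Nat.find_min hex hj h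
  -- valuations
  set v := V.valuation with hv
  have hvy : v y < 1 := (ValuationSubring.mem_nonunits_iff V).1 hyV
  have hvy0 : v y ≠ 0 := (Valuation.ne_zero_iff v).2 hy0
  have hvl : v (ℓ : Qb) < 1 := (ValuationSubring.mem_nonunits_iff V).1 hV
  have hvint : ∀ n : ℤ, v (n : Qb) ≤ 1 := fun n =>
    (V.valuation_le_one_iff _).2 (intCast_mem V n)
  have hvunit : v ((p.coeff i : ℤ) : Qb) = 1 := by
    have h1 := intCast_inv_memH679 V hℓ hV _ hi1
    have h2 : v (((p.coeff i : ℤ) : Qb))⁻¹ ≤ 1 := (V.valuation_le_one_iff _).2 h1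
    have h3 := hvint (p.coeff i)
    have hne : ((p.coeff i : ℤ) : Qb) ≠ 0 := by
      intro h
      apply hi1
      have : p.coeff i = 0 := by exact_mod_cast h
      rw [this]; exact dvd_zero _
    rw [map_inv₀] at h2
    have h4 : v ((p.coeff i : ℤ) : Qb) ≠ 0 := (Valuation.ne_zero_iff v).2 hne
    have h5 : 1 ≤ v ((p.coeff i : ℤ) : Qb) := by
      rwa [inv_le_one₀ (zero_lt_iff.2 h4)] at h2
    exact le_antisymm h3 h5
  -- the relation
  have hsum : aeval y p = ∑ j ∈ Finset.range (p.natDegree + 1), ((p.coeff j : ℤ) : Qb) * y ^ j := by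
    rw [aeval_eq_sum_range]
    refine Finset.sum_congr rfl fun j _ => ?_
    rw [zsmul_eq_mul]
  have hile : i ≤ p.natDegree := by
    by_contra h
    rw [not_le] at h
    exact hi1 (by rw [coeff_eq_zero_of_natDegree_lt h]; exact dvd_zero _)
  have himem : i ∈ Finset.range (p.natDegree + 1) := Finset.mem_range.2 (by omega)
  rw [hpy', ← Finset.add_sum_erase _ _ himem] at hsum
  have hrel : ((p.coeff i : ℤ) : Qb) * y ^ i
      = - ∑ j ∈ (Finset.range (p.natDegree + 1)).erase i, ((p.coeff j : ℤ) : Qb) * y ^ j := by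
    rw [eq_neg_iff_add_eq_zero]
    exact hsum.symm
  have hvi : v (y ^ i) = v (∑ j ∈ (Finset.range (p.natDegree + 1)).erase i,
      ((p.coeff j : ℤ) : Qb) * y ^ j) := by
    have := congrArg v hrel
    rw [map_mul, hvunit, one_mul, Valuation.map_neg] at this
    exact this
  -- bound each term by `max (v ℓ) (v y ^ (i+1))`
  have hbound : v (∑ j ∈ (Finset.range (p.natDegree + 1)).erase i,
      ((p.coeff j : ℤ) : Qb) * y ^ j) ≤ max (v (ℓ : Qb)) (v y ^ (i + 1)) := by
    apply Valuation.map_sum_le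
    intro j hj
    have hji : j ≠ i := Finset.ne_of_mem_erase hj
    rcases lt_or_gt_of_ne hji with hlt | hgt
    · obtain ⟨c, hc⟩ := hi2 j hlt
      refine le_trans ?_ (le_max_left _ _)
      rw [hc]
      push_cast
      rw [map_mul, map_mul, map_pow]
      have h1 : v (c : Qb) ≤ 1 := hvint c
      have h2 : v y ^ j ≤ 1 := pow_le_one₀ zero_le hvy.le
      calc v (ℓ : Qb) * v (c : Qb) * v y ^ j ≤ v (ℓ : Qb) * 1 * 1 := by
            gcongr
        _ = v (ℓ : Qb) := by rw [mul_one, mul_one]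
    · refine le_trans ?_ (le_max_right _ _)
      rw [map_mul, map_pow]
      have h1 : v ((p.coeff j : ℤ) : Qb) ≤ 1 := hvint _
      have h2 : v y ^ j ≤ v y ^ (i + 1) := pow_le_pow_of_le_one zero_le hvy.le (by omega)
      calc v ((p.coeff j : ℤ) : Qb) * v y ^ j ≤ 1 * v y ^ (i + 1) := by
            gcongr
        _ = v y ^ (i + 1) := one_mul _
  rw [← hvi, map_pow] at hbound
  have hstrict : v y ^ (i + 1) < v y ^ i := by
    rw [pow_succ]
    calc v y ^ i * v y < v y ^ i * 1 := by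
          apply mul_lt_mul_of_pos_left hvy
          exact zero_lt_iff.2 (pow_ne_zero _ hvy0)
      _ = v y ^ i := mul_one _
  have hle : v y ^ i ≤ v (ℓ : Qb) := by
    rcases le_max_iff.1 hbound with h | h
    · exact h
    · exact absurd h (not_le.2 hstrict)
  have hipos : 0 < i := by
    rcases Nat.eq_zero_or_pos i with h0 | h0
    · rw [h0, pow_zero] at hle
      exact absurd hvl (not_lt.2 hle)
    · exact h0
  refine ⟨i, hipos, y ^ i * ((ℓ : Qb))⁻¹, ?_, ?_⟩
  · rw [← V.valuation_le_one_iff, map_mul, map_inv₀, map_pow]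
    have hl0 : v (ℓ : Qb) ≠ 0 := by
      rw [Valuation.ne_zero_iff]
      exact_mod_cast hℓ.ne_zero
    rw [← div_eq_mul_inv, div_le_one₀ (zero_lt_iff.2 hl0)]
    exact hle
  · have hl0 : (ℓ : Qb) ≠ 0 := by exact_mod_cast hℓ.ne_zero
    field_simp

/-! ## Orbits of subgroups of the Galois group -/

/-- Orbits of elements of `ℚ̄` under any set of automorphisms are finite. -/
theorem finite_orbH679 (H : Set GalQ) (x : Qb) : {y : Qb | ∃ h ∈ H, h x = y}.Finite := by
  refine Set.Finite.subset (Polynomial.rootSet_finite (minpoly ℚ x) Qb) ?_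
  rintro y ⟨h, -, rfl⟩
  rw [Polynomial.mem_rootSet]
  refine ⟨minpoly.ne_zero (Algebra.IsIntegral.isIntegral x), ?_⟩
  exact minpoly.aeval_algHom ℚ (h : Qb →ₐ[ℚ] Qb) x

/-- The orbit of `x` under a subgroup, as a finset. -/
noncomputable def orbH679 (H : Subgroup GalQ) (x : Qb) : Finset Qb :=
  (finite_orbH679 (H : Set GalQ) x).toFinset

theorem mem_orbH679 {H : Subgroup GalQ} {x y : Qb} :
    y ∈ orbH679 H x ↔ ∃ h ∈ H, h x = y := by
  rw [orbH679, Set.Finite.mem_toFinset]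
  rfl

theorem self_mem_orbH679 (H : Subgroup GalQ) (x : Qb) : x ∈ orbH679 H x :=
  mem_orbH679.2 ⟨1, H.one_mem, rfl⟩

theorem apply_mem_orbH679 {H : Subgroup GalQ} {x y : Qb} {h : GalQ} (hh : h ∈ H)
    (hy : y ∈ orbH679 H x) : h y ∈ orbH679 H x := by
  obtain ⟨g, hg, rfl⟩ := mem_orbH679.1 hy
  exact mem_orbH679.2 ⟨h * g, H.mul_mem hh hg, rfl⟩

theorem galH679_inv_apply (h : GalQ) (y : Qb) : h⁻¹ (h y) = y := by
  show (h⁻¹ * h) y = y
  rw [inv_mul_cancel]; rfl

theorem galH679_apply_inv (h : GalQ) (y : Qb) : h (h⁻¹ y) = y := by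
  show (h * h⁻¹) y = y
  rw [mul_inv_cancel]; rfl

/-- Products over an orbit are invariant. -/
theorem apply_prod_orbH679 {H : Subgroup GalQ} (x : Qb) {h : GalQ} (hh : h ∈ H) :
    h (∏ y ∈ orbH679 H x, y) = ∏ y ∈ orbH679 H x, y := by
  rw [map_prod]
  refine Finset.prod_nbij' (fun y => h y) (fun y => h⁻¹ y)
    (fun y hy => apply_mem_orbH679 hh hy) (fun y hy => apply_mem_orbH679 (H.inv_mem hh) hy)
    (fun y _ => galH679_inv_apply h y) (fun y _ => galH679_apply_inv h y) (fun y _ => rfl)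

/-- The orbit polynomial. -/
noncomputable def orbPolyH679 (H : Subgroup GalQ) (x : Qb) : Qb[X] :=
  ∏ y ∈ orbH679 H x, (X - C y)

theorem map_orbPolyH679 {H : Subgroup GalQ} (x : Qb) {h : GalQ} (hh : h ∈ H) :
    (orbPolyH679 H x).map (h : Qb →+* Qb) = orbPolyH679 H x := by
  unfold orbPolyH679
  rw [Polynomial.map_prod]
  refine Finset.prod_nbij' (fun y => h y) (fun y => h⁻¹ y)
    (fun y hy => apply_mem_orbH679 hh hy) (fun y hy => apply_mem_orbH679 (H.inv_mem hh) hy)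
    (fun y _ => galH679_inv_apply h y) (fun y _ => galH679_apply_inv h y) ?_
  intro y _
  simp

theorem apply_coeff_orbPolyH679 {H : Subgroup GalQ} (x : Qb) {h : GalQ} (hh : h ∈ H) (j : ℕ) :
    h ((orbPolyH679 H x).coeff j) = (orbPolyH679 H x).coeff j := by
  conv_rhs => rw [← map_orbPolyH679 x hh]
  rw [Polynomial.coeff_map]
  rfl

/-- Coefficients of `∏ (X - y)` lie in any subring containing the `y`. -/
theorem coeff_prod_X_sub_C_memH679 (A : Subring Qb) (s : Finset Qb) (hs : ∀ y ∈ s, y ∈ A)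
    (j : ℕ) : (∏ y ∈ s, (X - C y)).coeff j ∈ A := by
  classical
  induction s using Finset.induction_on generalizing j with
  | empty =>
    rw [Finset.prod_empty, Polynomial.coeff_one]
    split_ifs
    · exact A.one_mem
    · exact A.zero_mem
  | insert a s ha ih =>
    rw [Finset.prod_insert ha, mul_comm]
    have hsa : ∀ y ∈ s, y ∈ A := fun y hy => hs y (Finset.mem_insert_of_mem hy)
    have haA : a ∈ A := hs a (Finset.mem_insert_self a s)
    rcases j with _ | j
    · rw [Polynomial.mul_coeff_zero]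
      refine A.mul_mem (ih hsa 0) ?_
      simp only [coeff_sub, coeff_X_zero, coeff_C_zero, zero_sub]
      exact A.neg_mem haA
    · rw [Polynomial.coeff_mul_X_sub_C]
      exact A.sub_mem (ih hsa j) (A.mul_mem (ih hsa (j + 1)) haA)

theorem orbPolyH679_eval_self (H : Subgroup GalQ) (x : Qb) : (orbPolyH679 H x).eval x = 0 := by
  unfold orbPolyH679
  rw [Polynomial.eval_prod]
  exact Finset.prod_eq_zero (self_mem_orbH679 H x) (by simp)

/-! ## Decomposition and inertia, elementwise -/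

theorem mem_decompH679 {V : ValuationSubring Qb} {δ : GalQ}
    (hδ : δ ∈ V.decompositionSubgroup ℚ) (x : Qb) : δ x ∈ V ↔ x ∈ V :=
  (mem_decompositionSubgroup_iff V δ).1 hδ x

theorem mem_nonunits_decompH679 {V : ValuationSubring Qb} {δ : GalQ}
    (hδ : δ ∈ V.decompositionSubgroup ℚ) (x : Qb) : δ x ∈ V.nonunits ↔ x ∈ V.nonunits := by
  rw [V.mem_nonunits_iff_or, V.mem_nonunits_iff_or, ← map_inv₀, mem_decompH679 hδ,
    map_eq_zero_iff _ δ.injective]

theorem inertia_le_decompH679 {V : ValuationSubring Qb} {ι : GalQ}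
    (hι : ι ∈ V.inertiaSubgroupIn ℚ) : ι ∈ V.decompositionSubgroup ℚ :=
  ((mem_inertiaSubgroupIn_iff V ι).1 hι).1

theorem inertia_sub_memH679 {V : ValuationSubring Qb} {ι : GalQ}
    (hι : ι ∈ V.inertiaSubgroupIn ℚ) {z : Qb} (hz : z ∈ V) : ι z - z ∈ V.nonunits :=
  ((mem_inertiaSubgroupIn_iff V ι).1 hι).2 z hz

/-- The `S19` inertia predicate follows from membership in the inertia group. -/
theorem isInertiaAt_of_memH679 {V : ValuationSubring Qb} {ι : GalQ}
    (hι : ι ∈ V.inertiaSubgroupIn ℚ) : IsInertiaAt V ι :=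
  fun _ hz => inertia_sub_memH679 hι hz

/-- Inertia is normal in the decomposition group. -/
theorem conj_mem_inertiaH679 {V : ValuationSubring Qb} {δ ι : GalQ}
    (hδ : δ ∈ V.decompositionSubgroup ℚ) (hι : ι ∈ V.inertiaSubgroupIn ℚ) :
    δ * ι * δ⁻¹ ∈ V.inertiaSubgroupIn ℚ := by
  rw [mem_inertiaSubgroupIn_iff]
  refine ⟨(V.decompositionSubgroup ℚ).mul_mem
    ((V.decompositionSubgroup ℚ).mul_mem hδ (inertia_le_decompH679 hι))
    ((V.decompositionSubgroup ℚ).inv_mem hδ), fun z hz => ?_⟩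
  have h1 : δ⁻¹ z ∈ V := (mem_decompH679 ((V.decompositionSubgroup ℚ).inv_mem hδ) z).2 hz
  have h2 := inertia_sub_memH679 hι h1
  have h3 : (δ * ι * δ⁻¹) z - z = δ (ι (δ⁻¹ z) - δ⁻¹ z) := by
    rw [map_sub, galH679_apply_inv]
    rfl
  rw [h3]
  exact (mem_nonunits_decompH679 hδ _).2 h2

theorem prod_sub_one_mem_nonunitsH679 {ι : Type*} (s : Finset ι) (g : ι → Qb)
    (hg : ∀ i ∈ s, g i - 1 ∈ V.nonunits) : ∏ i ∈ s, g i - 1 ∈ V.nonunits := by
  classical
  induction s using Finset.induction_on with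
  | empty => simpa using V.nonunits.zero_mem
  | insert a s ha ih =>
    rw [Finset.prod_insert ha]
    have h1 := hg a (Finset.mem_insert_self a s)
    have h2 := ih fun i hi => hg i (Finset.mem_insert_of_mem hi)
    have h3 : g a ∈ V := by
      have := V.add_mem _ _ (mem_of_mem_nonunitsH679 V h1) V.one_mem
      simpa using this
    have h4 : g a * ∏ i ∈ s, g i - 1 = g a * (∏ i ∈ s, g i - 1) + (g a - 1) := by ring
    rw [h4]
    exact V.nonunits.add_mem (mul_mem_nonunitsH679 V h3 h2) h1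

/-! ## Finite order of residues -/

include hℓ hV in
/-- A unit of `V` which is an algebraic integer has finite order modulo `𝔪_V`. -/
theorem exists_pow_sub_one_memH679 (x : Qb) (hx : IsIntegral ℤ x) (hxu : x ∉ V.nonunits) :
    ∃ N : ℕ, 0 < N ∧ x ^ N - 1 ∈ V.nonunits := by
  have hprime := primeBelow_isPrime V
  have hQ : (ℓ : integralClosure ℤ Qb) ∈ primeBelow V := by
    rw [mem_primeBelow]
    simpa using hV
  obtain ⟨σ, -, hσ⟩ := exists_frob_integralClosure ℓ hℓ (primeBelow V) hQ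
  have hσ' : ∀ z : Qb, IsIntegral ℤ z → σ z - z ^ ℓ ∈ V.nonunits := by
    intro z hz
    have := hσ ⟨z, hz⟩
    rw [mem_primeBelow] at this
    simpa using this
  have hintV : ∀ z : Qb, IsIntegral ℤ z → z ∈ V := fun z hz =>
    isIntegral_mem_valuationSubring V hz
  -- iterate
  have hiter : ∀ k : ℕ, ∀ z : Qb, IsIntegral ℤ z → (σ ^ k) z - z ^ (ℓ ^ k) ∈ V.nonunits := by
    intro k
    induction k with
    | zero =>
      intro z _
      simpa using V.nonunits.zero_mem
    | succ k ih =>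
      intro z hz
      have h1 := ih (σ z) (hz.map σ)
      have h2 : (σ z) ^ (ℓ ^ k) - (z ^ ℓ) ^ (ℓ ^ k) ∈ V.nonunits := by
        have hgeom := Commute.mul_geom_sum₂ (Commute.all (σ z) (z ^ ℓ)) (ℓ ^ k)
        have hne : IsIntegral ℤ (∑ i ∈ Finset.range (ℓ ^ k),
            (σ z) ^ i * (z ^ ℓ) ^ (ℓ ^ k - 1 - i)) :=
          IsIntegral.sum _ fun i _ => ((hz.map σ).pow _).mul ((hz.pow _).pow _)
        rw [← hgeom]
        exact mul_mem_nonunitsH679' V (hσ' z hz) (hintV _ hne)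
      have h3 : (σ ^ (k + 1)) z - z ^ (ℓ ^ (k + 1))
          = ((σ ^ k) (σ z) - (σ z) ^ (ℓ ^ k)) + ((σ z) ^ (ℓ ^ k) - (z ^ ℓ) ^ (ℓ ^ k)) := by
        rw [pow_succ σ k, pow_succ ℓ k, mul_comm (ℓ ^ k) ℓ, pow_mul]
        show (σ ^ k) (σ z) - _ = _
        ring
      rw [h3]
      exact V.nonunits.add_mem h1 h2
  -- pigeonhole on the (finite) orbit of `x`
  have hfin : {y : Qb | ∃ h ∈ (Set.univ : Set GalQ), h x = y}.Finite := finite_orbH679 _ x
  haveI : Finite ↥{y : Qb | ∃ h ∈ (Set.univ : Set GalQ), h x = y} := hfin.to_subtype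
  obtain ⟨a, b, hab, heq⟩ := Finite.exists_ne_map_eq_of_infinite
    (fun n : ℕ => (⟨(σ ^ n) x, ⟨σ ^ n, trivial, rfl⟩⟩ :
      ↥{y : Qb | ∃ h ∈ (Set.univ : Set GalQ), h x = y}))
  have heq' : (σ ^ a) x = (σ ^ b) x := congrArg Subtype.val heq
  have key : ∀ a b : ℕ, a < b → (σ ^ a) x = (σ ^ b) x → ∃ k : ℕ, 0 < k ∧ (σ ^ k) x = x := by
    intro a b hlt h1
    refine ⟨b - a, by omega, ?_⟩
    have h2 : σ ^ b = σ ^ a * σ ^ (b - a) := by
      rw [← pow_add]; congr 1; omega
    rw [h2] at h1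
    exact ((σ ^ a).injective h1).symm
  obtain ⟨k, hk, hkx⟩ : ∃ k : ℕ, 0 < k ∧ (σ ^ k) x = x := by
    rcases lt_or_gt_of_ne hab with h | h
    · exact key a b h heq'
    · exact key b a h heq'.symm
  have h1 := hiter k x hx
  rw [hkx] at h1
  have hℓk : 2 ≤ ℓ ^ k := by
    calc 2 ≤ ℓ := hℓ.two_le
      _ = ℓ ^ 1 := (pow_one ℓ).symm
      _ ≤ ℓ ^ k := Nat.pow_le_pow_right hℓ.pos hk
  refine ⟨ℓ ^ k - 1, by omega, ?_⟩
  have h2 : x - x ^ (ℓ ^ k) = x * (-(x ^ (ℓ ^ k - 1) - 1)) := by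
    have : ℓ ^ k = (ℓ ^ k - 1) + 1 := by omega
    conv_lhs => rw [this, pow_succ]
    ring
  rw [h2] at h1
  have hxV : x ∈ V := hintV x hx
  have hpV : -(x ^ (ℓ ^ k - 1) - 1) ∈ V :=
    neg_mem (sub_mem (pow_mem hxV _) (one_mem V))
  rcases mem_nonunits_of_mulH679 V hxV hpV h1 with h | h
  · exact absurd h hxu
  · have := V.nonunits.neg_mem h
    simpa using this

end Fermat.Agent.S19.H679
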